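import Fermat.Agent.RiemannMangoldt.Factor
import Mathlib.Analysis.Analytic.Order

/-!
# The zeros in a compact set as a factor

A function analytic on an open set, nowhere locally zero on a compact subset, is there a polynomial
with its zeros times a function without zeros.
-/

set_option autoImplicit false

noncomputable section

namespace FA.Levinson

open Complex Filter Topology Metric FA.RiemannMangoldt

theorem finite_zeros_compact {U K : Set ℂ} (hU : IsOpen U) (hK : IsCompact K) (hKU : K ⊆ U)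
    {f : ℂ → ℂ} (hf : DifferentiableOn ℂ f U) (hne : ∀ z ∈ K, analyticOrderAt f z ≠ ⊤) :
    {z | z ∈ K ∧ f z = 0}.Finite := by
  have hiso : ∀ z ∈ K, ∀ᶠ w in 𝓝 z, w = z ∨ f w ≠ 0 := fun z hz => by
    rcases (hf.analyticAt (hU.mem_nhds (hKU hz))).eventually_eq_zero_or_eventually_ne_zero with
      h | h
    · exact absurd (analyticOrderAt_eq_top.2 h) (hne z hz)
    · rw [eventually_nhdsWithin_iff] at h
      filter_upwards [h] with w hw
      exact or_iff_not_imp_left.2 hw
  obtain ⟨t, -, ht⟩ := hK.elim_nhds_subcover (fun z => {w | w = z ∨ f w ≠ 0}) hiso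
  refine t.finite_toSet.subset fun z hz => ?_
  obtain ⟨hzK, hz0⟩ := hz
  obtain ⟨x, hx, hzx⟩ := Set.mem_iUnion₂.1 (ht hzK)
  rcases hzx with rfl | h
  · exact hx
  · exact absurd hz0 h

/-- **The factorisation over a compact set.** -/
theorem exists_compact_factor {U K : Set ℂ} (hU : IsOpen U) (hK : IsCompact K) (hKU : K ⊆ U)
    {f : ℂ → ℂ} (hf : DifferentiableOn ℂ f U) (hne : ∀ z ∈ K, analyticOrderAt f z ≠ ⊤) :
    ∃ (Z : Multiset ℂ) (h : ℂ → ℂ), DifferentiableOn ℂ h U ∧ (∀ z, f z = rootProd Z z * h z) ∧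
      (∀ ρ ∈ Z, ρ ∈ K) ∧ (∀ z ∈ K, h z ≠ 0) ∧
      ∀ z ∈ K, analyticOrderNatAt f z = Z.count z := by
  classical
  obtain ⟨F, hF⟩ : ∃ F, F = (finite_zeros_compact hU hK hKU hf hne).toFinset := ⟨_, rfl⟩
  suffices main : ∀ (m : ℕ) (g : ℂ → ℂ), DifferentiableOn ℂ g U →
      (∀ z ∈ K, analyticOrderAt g z ≠ ⊤) → (∀ z ∈ K, g z = 0 → z ∈ F) →
      ∑ z ∈ F, analyticOrderNatAt g z ≤ m →
      ∃ (Z : Multiset ℂ) (h : ℂ → ℂ), DifferentiableOn ℂ h U ∧ (∀ z, g z = rootProd Z z * h z) ∧
        (∀ ρ ∈ Z, ρ ∈ K) ∧ ∀ z ∈ K, h z ≠ 0 by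
    obtain ⟨Z, h, hh, he, hZ, hh0⟩ := main _ f hf hne (fun z hz hz0 => by
      rw [hF, Set.Finite.mem_toFinset]
      exact ⟨hz, hz0⟩) le_rfl
    refine ⟨Z, h, hh, he, hZ, hh0, fun z hz => ?_⟩
    have hha : AnalyticAt ℂ h z := hh.analyticAt (hU.mem_nhds (hKU hz))
    have : analyticOrderAt f z = Z.count z := by
      rw [show f = rootProd Z * h from funext he,
        analyticOrderAt_mul ((differentiable_rootProd Z).analyticAt z) hha,
        analyticOrderAt_rootProd, hha.analyticOrderAt_eq_zero.2 (hh0 z hz), add_zero]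
    rw [analyticOrderNatAt, this, ENat.toNat_natCast]
  intro m
  induction m with
  | zero =>
    intro g hg hgne hgF hsum
    refine ⟨0, g, hg, fun z => by simp [rootProd], by simp, fun z hz hz0 => ?_⟩
    have h0 : analyticOrderNatAt g z = 0 := Finset.sum_eq_zero_iff.1 (Nat.le_zero.1 hsum) z
      (hgF z hz hz0)
    refine (hg.analyticAt (hU.mem_nhds (hKU hz))).analyticOrderAt_ne_zero.2 hz0 ?_
    rw [← Nat.cast_analyticOrderNatAt (hgne z hz), h0, Nat.cast_zero]
  | succ m ih =>
    intro g hg hgne hgF hsum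
    by_cases hzero : ∃ ρ ∈ K, g ρ = 0
    · obtain ⟨ρ, hρ, hgρ⟩ := hzero
      obtain ⟨q, hq⟩ : ∃ q, q = dslope g ρ := ⟨_, rfl⟩
      have hqd : DifferentiableOn ℂ q U :=
        hq ▸ (differentiableOn_dslope (hU.mem_nhds (hKU hρ))).2 hg
      have hfac : ∀ z, g z = rootProd {ρ} z * q z := fun z => by
        have hd := sub_smul_dslope g ρ z
        rw [hgρ, sub_zero, smul_eq_mul] at hd
        rw [hq, ← hd, show rootProd {ρ} z = z - ρ by simp [rootProd]]
      have hord : ∀ z ∈ K, analyticOrderAt g z =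
          ((({ρ} : Multiset ℂ).count z : ℕ) : ℕ∞) + analyticOrderAt q z := fun z hz => by
        rw [show g = rootProd {ρ} * q from funext hfac,
          analyticOrderAt_mul ((differentiable_rootProd _).analyticAt z)
            (hqd.analyticAt (hU.mem_nhds (hKU hz))), analyticOrderAt_rootProd]
      have hqne : ∀ z ∈ K, analyticOrderAt q z ≠ ⊤ := fun z hz h => hgne z hz (by
        rw [hord z hz, h, add_top])
      have hqF : ∀ z ∈ K, q z = 0 → z ∈ F := fun z hz h => hgF z hz (by rw [hfac, h, mul_zero])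
      have hnat : ∀ z ∈ K, analyticOrderNatAt g z =
          ({ρ} : Multiset ℂ).count z + analyticOrderNatAt q z := fun z hz => by
        rw [analyticOrderNatAt, analyticOrderNatAt, hord z hz,
          ENat.toNat_add (ENat.natCast_ne_top _) (hqne z hz), ENat.toNat_natCast]
      have hFK : ∀ z ∈ F, z ∈ K := fun z hz => by
        rw [hF, Set.Finite.mem_toFinset] at hz
        exact hz.1
      obtain ⟨Z, h, hh, he, hZ, hh0⟩ := ih q hqd hqne hqF (by
        have hlt : ∑ z ∈ F, analyticOrderNatAt q z < ∑ z ∈ F, analyticOrderNatAt g z := by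
          refine Finset.sum_lt_sum
            (fun z hz => by rw [hnat z (hFK z hz)]; exact Nat.le_add_left _ _)
            ⟨ρ, hgF ρ hρ hgρ, ?_⟩
          rw [hnat ρ hρ, Multiset.count_singleton_self]
          omega
        omega)
      refine ⟨ρ ::ₘ Z, h, hh, fun z => ?_, fun x hx => ?_, hh0⟩
      · rw [hfac, he z, rootProd_cons, show rootProd {ρ} z = z - ρ by simp [rootProd]]
        ring
      · rcases Multiset.mem_cons.1 hx with rfl | hx
        · exact hρ
        · exact hZ x hx
    · push Not at hzero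
      exact ⟨0, g, hg, fun z => by simp [rootProd], by simp, hzero⟩

end FA.Levinson

end
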