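import Fermat.Agent.Levinson.Companion
import Fermat.Agent.Levinson.Factor

/-!
# Zeros and horizontal arguments of `G`

The zeros of `G` in `1/2 ≤ re ≤ 2` above the base height, and the change of its argument across
that strip at height `t`, which is `O (log t)` by Jensen's inequality.
-/

set_option autoImplicit false

noncomputable section

namespace FA.Levinson

open Complex Filter Topology Metric MeasureTheory Set FA.RiemannMangoldt FA.ZeroFree
open scoped Real

/-- The height from which the zeros of `G` are counted. -/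
def lvStart : ℝ := lvBase + 1

/-- The rectangle of the count. -/
def lvRegion (T : ℝ) : Set ℂ := Icc (1 / 2 : ℝ) 2 ×ℂ Icc lvStart T

/-- An open set on which `G` is analytic. -/
def lvDomain : Set ℂ := {s : ℂ | (0 < s.re ∧ s.re < 3) ∧ lvBase < s.im}

theorem isOpen_lvDomain : IsOpen lvDomain :=
  ((isOpen_lt continuous_const continuous_re).inter
    (isOpen_lt continuous_re continuous_const)).inter
    (isOpen_lt continuous_const continuous_im)

theorem convex_lvDomain : Convex ℝ lvDomain :=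
  ((convex_halfSpace_re_gt 0).inter (convex_halfSpace_re_lt 3)).inter (convex_halfSpace_im_gt _)

theorem differentiableOn_lvFn : DifferentiableOn ℂ lvFn lvDomain := fun _ hz =>
  (analyticAt_lvFn hz.1.1.le hz.1.2.le hz.2.le).differentiableAt.differentiableWithinAt

theorem lvRegion_subset (T : ℝ) : lvRegion T ⊆ lvDomain := fun s hs => by
  rw [lvRegion, mem_reProdIm] at hs
  refine ⟨⟨by linarith [hs.1.1], by linarith [hs.1.2]⟩, ?_⟩
  have := hs.2.1
  rw [lvStart] at this
  linarith

theorem order_lvFn_ne_top {s : ℂ} (hs : s ∈ lvDomain) : analyticOrderAt lvFn s ≠ ⊤ := fun h => by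
  have h0 := (differentiableOn_lvFn.analyticOnNhd isOpen_lvDomain
    ).eqOn_zero_of_preconnected_of_eventuallyEq_zero convex_lvDomain.isPreconnected hs
      (analyticOrderAt_eq_top.1 h)
  have hmem : ((3 / 2 : ℝ) : ℂ) + s.im * I ∈ lvDomain :=
    ⟨⟨by simp, by simp⟩, by simpa using hs.2⟩
  have := le_norm_lvFn_centre hs.2.le
  rw [h0 hmem, Pi.zero_apply, norm_zero] at this
  norm_num at this

theorem isCompact_lvRegion (T : ℝ) : IsCompact (lvRegion T) :=
  isCompact_Icc.reProdIm isCompact_Icc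

theorem finite_lvZeros (T : ℝ) : {s | s ∈ lvRegion T ∧ lvFn s = 0}.Finite :=
  finite_zeros_compact isOpen_lvDomain (isCompact_lvRegion T) (lvRegion_subset T)
    differentiableOn_lvFn fun _ hz => order_lvFn_ne_top (lvRegion_subset T hz)

/-- **The number of zeros of `G`** with `1/2 ≤ re ≤ 2` up to height `T`, with multiplicity. -/
def lvCount (T : ℝ) : ℕ :=
  ∑ ρ ∈ (finite_lvZeros T).toFinset, analyticOrderNatAt lvFn ρ

theorem lvCount_mono {S T : ℝ} (h : S ≤ T) : lvCount S ≤ lvCount T :=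
  Finset.sum_le_sum_of_subset fun ρ hρ => by
    rw [Set.Finite.mem_toFinset] at hρ ⊢
    obtain ⟨hr, h0⟩ := hρ
    rw [lvRegion, mem_reProdIm] at hr
    exact ⟨(mem_reProdIm.2 ⟨hr.1, hr.2.1, hr.2.2.trans h⟩ : ρ ∈ lvRegion T), h0⟩

/-- **The change of the argument across the strip.** -/
theorem exists_lvFn_horizontal : ∃ C, 0 ≤ C ∧ ∀ t : ℝ, lvBase + 2 ≤ t →
    (∀ u ∈ Icc (1 / 2 : ℝ) 2, lvFn ((u : ℂ) + t * I) ≠ 0) →
    |(∫ u in (1 / 2 : ℝ)..2, deriv lvFn ((u : ℂ) + t * I) / lvFn ((u : ℂ) + t * I)).im| ≤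
      C * ell t := by
  obtain ⟨K, hK, hexp⟩ := exists_logDeriv_expansion (r₁ := 23 / 20) (r := 6 / 5) (r₂ := 21 / 20)
    (by norm_num) (by norm_num) (by norm_num)
  refine ⟨2 * π * (3 * K) + 2 * (3 * K), by positivity, fun t ht hne => ?_⟩
  have hb := le_lvBase
  obtain ⟨s₀, hs₀⟩ : ∃ s₀ : ℂ, s₀ = ((3 / 2 : ℝ) : ℂ) + t * I := ⟨_, rfl⟩
  obtain ⟨f, hf⟩ : ∃ f : ℂ → ℂ, f = fun z => lvFn (s₀ + z) := ⟨_, rfl⟩
  have hre : s₀.re = 3 / 2 := by simp [hs₀]
  have him : s₀.im = t := by simp [hs₀]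
  have hbox : ∀ z : ℂ, ‖z‖ < 5 / 4 → s₀ + z ∈ lvDomain := fun z hz => by
    have a := abs_le.1 ((abs_re_le_norm z).trans hz.le)
    have b := abs_le.1 ((abs_im_le_norm z).trans hz.le)
    exact ⟨⟨by rw [add_re, hre]; linarith, by rw [add_re, hre]; linarith⟩,
      by rw [add_im, him]; linarith⟩
  have hd : DifferentiableOn ℂ f (ball 0 (5 / 4)) := fun z hz => by
    rw [hf]
    exact ((analyticAt_lvFn (hbox z (by simpa using hz)).1.1.le (hbox z (by simpa using hz)).1.2.le
      (hbox z (by simpa using hz)).2.le).differentiableAt.comp z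
        (differentiableAt_id.const_add s₀)).differentiableWithinAt
  have hlow : 1 / 16 ≤ ‖f 0‖ := by
    have := le_norm_lvFn_centre (t := t) (by linarith)
    simpa [hf, hs₀] using this
  obtain ⟨B, hB⟩ : ∃ B, B = 96 * (t + 6) := ⟨_, rfl⟩
  have hB1 : 1 ≤ B := by rw [hB]; linarith
  have hsph : ∀ z ∈ sphere (0 : ℂ) (6 / 5), ‖f z‖ ≤ B * ‖f 0‖ := fun z hz => by
    rw [mem_sphere_zero_iff_norm] at hz
    have a := abs_le.1 ((abs_re_le_norm z).trans hz.le)
    have b := abs_le.1 ((abs_im_le_norm z).trans hz.le)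
    rw [hf]
    refine (norm_lvFn_le (by rw [add_re, hre]; linarith) (by rw [add_re, hre]; linarith)
      (by rw [add_im, him]; linarith)).trans ?_
    rw [add_im, him]
    calc 6 * (t + z.im + 4) ≤ B * (1 / 16) := by rw [hB]; linarith
      _ ≤ _ := mul_le_mul_of_nonneg_left (by simpa [hf] using hlow) (by linarith)
  obtain ⟨Z, hZ, hcard, hord, hlog⟩ := hexp (ball 0 (5 / 4)) f B isOpen_ball
    (closedBall_subset_ball (by norm_num)) hd
    (norm_pos_iff.1 (lt_of_lt_of_le (by norm_num) hlow)) hB1 hsph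
  have hlB : Real.log B + 1 ≤ 3 * ell t := by
    have : Real.log B ≤ 2 * ell t := by
      rw [show (2 : ℝ) * ell t = Real.log ((|t| + 100) ^ 2) by rw [Real.log_pow]; rfl,
        abs_of_nonneg (show (0 : ℝ) ≤ t by linarith)]
      exact Real.log_le_log (by linarith) (by rw [hB]; nlinarith)
    linarith [four_le_ell t]
  have hKl : K * (Real.log B + 1) ≤ 3 * K * ell t :=
    (mul_le_mul_of_nonneg_left hlB hK).trans (le_of_eq (by ring))
  obtain ⟨Z', hZ'⟩ : ∃ Z', Z' = Z.map fun ρ => ρ + s₀ := ⟨_, rfl⟩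
  have hseg : ∀ u ∈ Icc (1 / 2 : ℝ) 2, ‖((u : ℂ) + t * I) - s₀‖ ≤ 21 / 20 := fun u hu => by
    rw [hs₀, show (u : ℂ) + t * I - (((3 / 2 : ℝ) : ℂ) + t * I) = ((u - 3 / 2 : ℝ) : ℂ) by
      push_cast; ring, Complex.norm_real, Real.norm_eq_abs, abs_le]
    constructor <;> linarith [hu.1, hu.2]
  have hZim : ∀ ρ ∈ Z', ρ.im ≠ t ∨ ¬ρ.re ∈ Icc (1 / 2 : ℝ) 2 := by
    intro ρ hρ
    rw [hZ'] at hρ
    obtain ⟨x, hx, rfl⟩ := Multiset.mem_map.1 hρ
    by_contra h
    rw [not_or, not_not, not_not] at h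
    have hc : 0 < Z.count x := Multiset.count_pos.2 hx
    rw [← hord x (hZ x hx)] at hc
    have hz : f x = 0 := apply_eq_zero_of_analyticOrderNatAt_ne_zero hc.ne'
    refine hne (x + s₀).re h.2 ?_
    rw [← h.1, Complex.re_add_im, add_comm]
    simpa [hf] using hz
  have hroots : IntervalIntegrable (fun u : ℝ =>
        (Z'.map fun ρ => ((u : ℂ) + t * I - ρ)⁻¹).sum) volume (1 / 2) 2 ∧
      |(∫ u in (1 / 2 : ℝ)..2, (Z'.map fun ρ => ((u : ℂ) + t * I - ρ)⁻¹).sum).im| ≤
        2 * π * Multiset.card Z' := by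
    clear hcard hord hZ' hZ
    induction Z' using Multiset.induction_on with
    | empty => simp
    | cons ρ Y ih =>
      obtain ⟨hi, hb'⟩ := ih fun x hx => hZim x (Multiset.mem_cons_of_mem hx)
      have hρ := hZim ρ (Multiset.mem_cons_self _ _)
      have hden : ∀ u ∈ uIcc (1 / 2 : ℝ) 2, (u : ℂ) + t * I - ρ ≠ 0 := fun u hu h0 => by
        rw [uIcc_of_le (by norm_num)] at hu
        rw [sub_eq_zero] at h0
        rcases hρ with h1 | h1
        · exact h1 (by rw [← h0]; simp)
        · exact h1 (by rw [← h0]; simpa using hu)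
      have hi1 : IntervalIntegrable (fun u : ℝ => ((u : ℂ) + t * I - ρ)⁻¹) volume (1 / 2) 2 :=
        (ContinuousOn.inv₀ (by fun_prop) hden).intervalIntegrable
      simp only [Multiset.map_cons, Multiset.sum_cons, Multiset.card_cons]
      refine ⟨hi1.add hi, ?_⟩
      rw [intervalIntegral.integral_add hi1 hi, add_im]
      refine (abs_add_le _ _).trans ?_
      push_cast
      have h1 : |(∫ u in (1 / 2 : ℝ)..2, ((u : ℂ) + t * I - ρ)⁻¹).im| ≤ 2 * π := by
        rcases eq_or_ne ρ.im t with h | h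
        · have e : ∀ u : ℝ, (u : ℂ) + t * I - ρ = ((u - ρ.re : ℝ) : ℂ) := fun u => by
            apply Complex.ext <;> simp [h]
          simp only [e, ← ofReal_inv, intervalIntegral.integral_ofReal, ofReal_im, abs_zero]
          positivity
        · simp only [show ∀ u : ℝ, (u : ℂ) + t * I - ρ = (u : ℂ) + (t * I - ρ) from
            fun u => by ring]
          rw [integral_inv_horizontal (by simpa [sub_eq_zero] using Ne.symm h), Complex.sub_im,
            Complex.log_im, Complex.log_im]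
          exact abs_arg_sub_le _ _
      linarith
  have hrem : ∀ u ∈ Icc (1 / 2 : ℝ) 2, ‖deriv lvFn ((u : ℂ) + t * I) / lvFn ((u : ℂ) + t * I) -
      (Z'.map fun ρ => ((u : ℂ) + t * I - ρ)⁻¹).sum‖ ≤ 3 * K * ell t := fun u hu => by
    have h1 := hlog ((u : ℂ) + t * I - s₀) (mem_closedBall_zero_iff.2 (hseg u hu))
      (by simpa [hf] using hne u hu)
    simp only [hf, deriv_comp_const_add, add_sub_cancel] at h1
    rw [hZ', Multiset.map_map]
    refine le_trans (le_of_eq ?_) (h1.trans hKl)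
    congr 3
    refine Multiset.map_congr rfl fun ρ _ => ?_
    simp only [Function.comp_apply]
    congr 1
    ring
  have hGc : ContinuousOn (fun u : ℝ => deriv lvFn ((u : ℂ) + t * I) / lvFn ((u : ℂ) + t * I))
      (uIcc (1 / 2) 2) := fun u hu => by
    rw [uIcc_of_le (by norm_num)] at hu
    have ha := analyticAt_lvFn (s := (u : ℂ) + t * I) (by simp; linarith [hu.1])
      (by simp; linarith [hu.2]) (by simp; linarith)
    exact (ContinuousAt.comp' (g := fun s => deriv lvFn s / lvFn s)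
      (f := fun v : ℝ => (v : ℂ) + t * I)
      (ha.deriv.continuousAt.div ha.continuousAt (hne u hu)) (by fun_prop)).continuousWithinAt
  obtain ⟨hRi, hRb⟩ := hroots
  have hdiff : |(∫ u in (1 / 2 : ℝ)..2, (deriv lvFn ((u : ℂ) + t * I) / lvFn ((u : ℂ) + t * I) -
      (Z'.map fun ρ => ((u : ℂ) + t * I - ρ)⁻¹).sum)).im| ≤ 2 * (3 * K) * ell t := by
    refine (abs_im_le_norm _).trans ((intervalIntegral.norm_integral_le_of_norm_le_const
      (C := 3 * K * ell t) fun u hu => ?_).trans ?_)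
    · rw [uIoc_of_le (by norm_num)] at hu
      exact hrem u ⟨hu.1.le, hu.2⟩
    · have := mul_nonneg hK (ell_pos t).le
      norm_num
      linarith
  rw [intervalIntegral.integral_sub hGc.intervalIntegrable hRi, sub_im] at hdiff
  have hcard' : (Multiset.card Z' : ℝ) ≤ 3 * K * ell t := by
    rw [hZ', Multiset.card_map]
    exact hcard.trans hKl
  have h2 := mul_le_mul_of_nonneg_left hcard' (show 0 ≤ 2 * π by positivity)
  rw [abs_le] at hRb hdiff ⊢
  constructor <;> linarith

end FA.Levinson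

end
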