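import Fermat.Agent.RiemannMangoldt.Main
import Fermat.Agent.PairCorr.Bounds
import Fermat.Agent.HardyZeros.Decay
import Fermat.Agent.DelaValleePoussin.Region
import Fermat.Agent.BohrLandau.Zeros
import Mathlib.Analysis.Complex.Liouville
import Mathlib.Analysis.Calculus.Deriv.Star

/-!
# Levinson's companion `G = ζ + ζ' / D` of the zeta function

`D s` is `Γℝ'/Γℝ (s) + Γℝ'/Γℝ (1 - s)`, about `log (t / 2π)`. The functional equation differentiated
gives `Γℝ D G (s) = -Γℝ ζ' (1 - s)`, and on the critical line the real part of `Γℝ G` is half the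
real number `Γℝ ζ`.
-/

set_option autoImplicit false

noncomputable section

namespace FA.Levinson

open Complex Filter Topology Metric FA.ZeroFree
open scoped Real ComplexConjugate

/-- `Γℝ'/Γℝ`. -/
def gammaLog (s : ℂ) : ℂ := deriv Gammaℝ s / Gammaℝ s

/-- `Γℝ'/Γℝ (s) + Γℝ'/Γℝ (1 - s)`. -/
def lvD (s : ℂ) : ℂ := gammaLog s + gammaLog (1 - s)

/-- **Levinson's function** `ζ + ζ' / D`. -/
def lvFn (s : ℂ) : ℂ := riemannZeta s + deriv riemannZeta s / lvD s

/-- The height from which everything is counted. -/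
def lvBase : ℝ := Real.exp 4000

theorem le_lvBase : (4001 : ℝ) ≤ lvBase := by
  have := Real.add_one_le_exp (4000 : ℝ)
  rw [lvBase]
  linarith

theorem gammaℝ_ne_zero {s : ℂ} (hs : s.im ≠ 0) : Gammaℝ s ≠ 0 := fun h => by
  obtain ⟨n, hn⟩ := Gammaℝ_eq_zero_iff.1 h
  exact hs (by rw [hn]; simp)

theorem differentiableAt_gammaℝ {s : ℂ} (hs : Gammaℝ s ≠ 0) : DifferentiableAt ℂ Gammaℝ s := by
  have h := (differentiable_Gammaℝ_inv s).inv (inv_ne_zero hs)
  rwa [show (fun z : ℂ => (Gammaℝ z)⁻¹)⁻¹ = Gammaℝ from funext fun z => inv_inv _] at h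

theorem isOpen_im_ne : IsOpen {s : ℂ | s.im ≠ 0} :=
  isOpen_ne.preimage Complex.continuous_im

theorem analyticAt_gammaℝ {s : ℂ} (hs : s.im ≠ 0) : AnalyticAt ℂ Gammaℝ s :=
  DifferentiableOn.analyticAt (fun _ hz =>
    (differentiableAt_gammaℝ (gammaℝ_ne_zero hz)).differentiableWithinAt)
    (isOpen_im_ne.mem_nhds hs)

theorem analyticAt_gammaLog {s : ℂ} (hs : s.im ≠ 0) : AnalyticAt ℂ gammaLog s :=
  (analyticAt_gammaℝ hs).deriv.div (analyticAt_gammaℝ hs) (gammaℝ_ne_zero hs)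

theorem gammaLog_add_two {s : ℂ} (hs : s.im ≠ 0) : gammaLog (s + 2) = gammaLog s + 1 / s := by
  have hs0 : s ≠ 0 := fun h => hs (by rw [h, zero_im])
  have he : (fun z => Gammaℝ (z + 2)) =ᶠ[𝓝 s] fun z => Gammaℝ z * z / 2 / (π : ℂ) := by
    filter_upwards [isOpen_ne.mem_nhds hs0] with z hz
    exact Gammaℝ_add_two hz
  have hd := (((differentiableAt_gammaℝ (gammaℝ_ne_zero hs)).hasDerivAt.mul
    (hasDerivAt_id' s)).div_const 2).div_const (π : ℂ)
  have h1 : deriv Gammaℝ (s + 2) = (deriv Gammaℝ s * s + Gammaℝ s * 1) / 2 / (π : ℂ) := by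
    rw [← deriv_comp_add_const (f := Gammaℝ) (a := (2 : ℂ)) (x := s), he.deriv_eq]
    exact hd.deriv
  have h0 := gammaℝ_ne_zero hs
  have hπ : (π : ℂ) ≠ 0 := ofReal_ne_zero.2 Real.pi_ne_zero
  rw [gammaLog, gammaLog, h1, Gammaℝ_add_two hs0]
  field_simp

theorem gammaLog_eq_digamma {s : ℂ} (hs : 0 < s.re) :
    gammaLog s = -((Real.log π : ℝ) : ℂ) / 2 +
      deriv Complex.Gamma (s / 2) / Complex.Gamma (s / 2) / 2 := by
  refine (RiemannMangoldt.hasDerivAt_logGammaReal hs).unique ?_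
  refine ((((hasDerivAt_id' s).div_const 2).neg.mul_const ((Real.log π : ℝ) : ℂ)).add
    ((RiemannMangoldt.hasDerivAt_logGam (z := s / 2) (by simpa using hs)).comp s
      ((hasDerivAt_id' s).div_const 2))).congr_deriv ?_
  ring

theorem norm_gammaLog_sub_le {s : ℂ} (h1 : -2 ≤ s.re) (h2 : s.re ≤ 3) (ht : 4 ≤ |s.im|) :
    ‖gammaLog s - (((Real.log (|s.im| / 2 + 2) - Real.log π) / 2 : ℝ) : ℂ)‖ ≤ 11 := by
  have him : ∀ a : ℂ, a.im = 0 → (s + a).im ≠ 0 := fun a ha h => by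
    rw [add_im, ha, add_zero] at h
    rw [h, abs_zero] at ht
    norm_num at ht
  have hs : s.im ≠ 0 := by simpa using him 0 rfl
  have e : gammaLog s = gammaLog (s + 4) - 1 / s - 1 / (s + 2) := by
    rw [show s + 4 = s + 2 + 2 by ring, gammaLog_add_two (him 2 (by simp)), gammaLog_add_two hs]
    ring
  have hinv : ∀ a : ℂ, a.im = 0 → ‖1 / (s + a)‖ ≤ 1 / 4 := fun a ha => by
    rw [norm_div, norm_one]
    refine one_div_le_one_div_of_le four_pos (ht.trans ?_)
    simpa [ha] using abs_im_le_norm (s + a)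
  have i0 : ‖1 / s‖ ≤ 1 / 4 := by simpa using hinv 0 rfl
  have i2 := hinv 2 (by simp)
  have hψ := PairCorrelation.norm_digamma_sub_log_le (z := (s + 4) / 2) (by simp; linarith)
    (by simp; linarith)
  rw [show |((s + 4) / 2).im| = |s.im| / 2 by simp [abs_div]] at hψ
  rw [e, gammaLog_eq_digamma (s := s + 4) (by simp; linarith)]
  generalize deriv Complex.Gamma ((s + 4) / 2) / Complex.Gamma ((s + 4) / 2) = ψ at hψ
  rw [show -((Real.log π : ℝ) : ℂ) / 2 + ψ / 2 - 1 / s - 1 / (s + 2) -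
      (((Real.log (|s.im| / 2 + 2) - Real.log π) / 2 : ℝ) : ℂ) =
      (ψ - ((Real.log (|s.im| / 2 + 2) : ℝ) : ℂ)) / 2 - 1 / s - 1 / (s + 2) by
    push_cast; ring]
  refine (norm_sub_le _ _).trans ((add_le_add (norm_sub_le _ _) le_rfl).trans ?_)
  rw [norm_div, Complex.norm_two]
  linarith

/-- `D = log (t / 2π) + O (1)`. -/
theorem norm_lvD_sub_le {s : ℂ} (h1 : 0 ≤ s.re) (h2 : s.re ≤ 3) (ht : 4 ≤ s.im) :
    ‖lvD s - ((Real.log (s.im / (2 * π)) : ℝ) : ℂ)‖ ≤ 24 := by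
  have habs : |s.im| = s.im := abs_of_nonneg (by linarith)
  have a := norm_gammaLog_sub_le (s := s) (by linarith) h2 (by rwa [habs])
  have b := norm_gammaLog_sub_le (s := 1 - s) (by simp; linarith) (by simp; linarith)
    (by simpa [habs] using ht)
  rw [habs] at a
  rw [show |(1 - s).im| = s.im by simp [habs]] at b
  have hl : |Real.log (s.im / 2 + 2) - Real.log π - Real.log (s.im / (2 * π))| ≤ 2 := by
    rw [show Real.log (s.im / 2 + 2) - Real.log π - Real.log (s.im / (2 * π)) =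
        Real.log (1 + 4 / s.im) by
      rw [show s.im / (2 * π) = s.im / 2 / π by ring, Real.log_div (by linarith) Real.pi_ne_zero,
        show 1 + 4 / s.im = (s.im / 2 + 2) / (s.im / 2) by
          have : s.im ≠ 0 := by linarith
          field_simp; ring,
        Real.log_div (x := s.im / 2 + 2) (by linarith) (by linarith)]
      ring]
    have h4 : 4 / s.im ≤ 1 := by rw [div_le_one (by linarith)]; exact ht
    have h0 : 0 < 4 / s.im := div_pos four_pos (by linarith)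
    rw [abs_of_nonneg (Real.log_nonneg (by linarith))]
    linarith [Real.log_le_sub_one_of_pos (show 0 < 1 + 4 / s.im by linarith)]
  obtain ⟨v, hv⟩ : ∃ v : ℂ, v = (((Real.log (s.im / 2 + 2) - Real.log π) / 2 : ℝ) : ℂ) := ⟨_, rfl⟩
  rw [← hv] at a b
  have e : lvD s - ((Real.log (s.im / (2 * π)) : ℝ) : ℂ) = (gammaLog s - v) +
      (gammaLog (1 - s) - v) + ((Real.log (s.im / 2 + 2) - Real.log π -
        Real.log (s.im / (2 * π)) : ℝ) : ℂ) := by
    rw [lvD, hv]
    push_cast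
    ring
  rw [e]
  refine norm_add₃_le.trans ?_
  rw [Complex.norm_real, Real.norm_eq_abs]
  linarith

theorem le_log_of_lvBase {t : ℝ} (ht : lvBase ≤ t) : 3990 ≤ Real.log (t / (2 * π)) := by
  have h0 : 0 < t := lt_of_lt_of_le (Real.exp_pos _) ht
  rw [Real.log_div h0.ne' (by positivity)]
  have h1 : 4000 ≤ Real.log t := by
    rw [Real.le_log_iff_exp_le h0]
    exact ht
  have h2 := Real.log_le_self (show 0 ≤ 2 * π by positivity)
  linarith [Real.pi_lt_d2]

theorem le_norm_lvD {s : ℂ} (h1 : 0 ≤ s.re) (h2 : s.re ≤ 3) (ht : lvBase ≤ s.im) :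
    3900 ≤ ‖lvD s‖ := by
  have h := norm_lvD_sub_le h1 h2 (by linarith [le_lvBase])
  have hl := le_log_of_lvBase ht
  have := norm_sub_norm_le ((Real.log (s.im / (2 * π)) : ℝ) : ℂ) (lvD s)
  rw [Complex.norm_real, Real.norm_of_nonneg (by linarith), norm_sub_rev] at this
  linarith

theorem lvD_ne_zero {s : ℂ} (h1 : 0 ≤ s.re) (h2 : s.re ≤ 3) (ht : lvBase ≤ s.im) :
    lvD s ≠ 0 := norm_pos_iff.1 (by linarith [le_norm_lvD h1 h2 ht])

theorem im_ne_zero_of_base {s : ℂ} (ht : lvBase ≤ s.im) : s.im ≠ 0 := by linarith [le_lvBase]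

theorem analyticAt_zeta {s : ℂ} (hs : s ≠ 1) : AnalyticAt ℂ riemannZeta s :=
  DifferentiableOn.analyticAt (fun _ hz =>
    (differentiableAt_riemannZeta hz).differentiableWithinAt) (isOpen_ne.mem_nhds hs)

theorem analyticAt_lvFn {s : ℂ} (h1 : 0 ≤ s.re) (h2 : s.re ≤ 3) (ht : lvBase ≤ s.im) :
    AnalyticAt ℂ lvFn s := by
  have him := im_ne_zero_of_base ht
  have hne : s ≠ 1 := fun h => him (by rw [h, one_im])
  refine (analyticAt_zeta hne).add ((analyticAt_zeta hne).deriv.div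
    ((analyticAt_gammaLog him).add ((analyticAt_gammaLog (s := 1 - s) (by simpa using him)).comp
      (f := fun z : ℂ => 1 - z) (analyticAt_const.sub analyticAt_id))) (lvD_ne_zero h1 h2 ht))

theorem gammaℝ_mul_zeta_one_sub {s : ℂ} (hs : s.im ≠ 0) :
    Gammaℝ (1 - s) * riemannZeta (1 - s) = Gammaℝ s * riemannZeta s := by
  have h0 : s ≠ 0 := fun h => hs (by rw [h, zero_im])
  have h1 : (1 : ℂ) - s ≠ 0 := fun h => hs (by simpa using congrArg Complex.im h)
  rw [riemannZeta_def_of_ne_zero h0, riemannZeta_def_of_ne_zero h1,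
    mul_div_cancel₀ _ (gammaℝ_ne_zero hs),
    mul_div_cancel₀ _ (gammaℝ_ne_zero (s := 1 - s) (by simpa using hs)),
    completedRiemannZeta_one_sub]

/-- **The differentiated functional equation.** -/
theorem gammaℝ_mul_lvD_mul_lvFn {s : ℂ} (hs : s.im ≠ 0) (hD : lvD s ≠ 0) :
    Gammaℝ s * lvD s * lvFn s = -(Gammaℝ (1 - s) * deriv riemannZeta (1 - s)) := by
  have hs' : (1 - s).im ≠ 0 := by simpa using hs
  have hne : s ≠ 1 := fun h => hs (by rw [h, one_im])
  have hne' : 1 - s ≠ 1 := fun h => hs' (by rw [h, one_im])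
  have ha := (differentiableAt_gammaℝ (gammaℝ_ne_zero hs)).hasDerivAt.mul
    (differentiableAt_riemannZeta hne).hasDerivAt
  have hb := ((differentiableAt_gammaℝ (gammaℝ_ne_zero hs')).hasDerivAt.mul
    (differentiableAt_riemannZeta hne').hasDerivAt).comp s ((hasDerivAt_id' s).const_sub 1)
  have he : ((fun z => Gammaℝ z) * fun z => riemannZeta z) ∘ (fun z : ℂ => 1 - z) =ᶠ[𝓝 s]
      (fun z => Gammaℝ z) * fun z => riemannZeta z := by
    filter_upwards [isOpen_im_ne.mem_nhds hs] with z hz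
    exact gammaℝ_mul_zeta_one_sub hz
  have h := (hb.congr_of_eventuallyEq he.symm).unique ha
  have f := gammaℝ_mul_zeta_one_sub hs
  have g1 : gammaLog s * Gammaℝ s = deriv Gammaℝ s := div_mul_cancel₀ _ (gammaℝ_ne_zero hs)
  have g2 : gammaLog (1 - s) * Gammaℝ (1 - s) = deriv Gammaℝ (1 - s) :=
    div_mul_cancel₀ _ (gammaℝ_ne_zero hs')
  rw [lvFn, mul_assoc, mul_add, mul_div_cancel₀ _ hD, lvD]
  linear_combination riemannZeta s * g1 + riemannZeta (1 - s) * g2 - gammaLog (1 - s) * f - h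

theorem gammaLog_conj {s : ℂ} : gammaLog (conj s) = conj (gammaLog s) := by
  have he : conj ∘ Gammaℝ ∘ conj = Gammaℝ := funext fun z => by
    simp only [Function.comp_apply, FA.HardyZeros.conj_Gammaℝ, Complex.conj_conj]
  have h1 : deriv Gammaℝ (conj s) = conj (deriv Gammaℝ s) := by
    conv_lhs => rw [← he, deriv_conj_conj]
    simp
  rw [gammaLog, gammaLog, h1, map_div₀, FA.HardyZeros.conj_Gammaℝ]

theorem deriv_zeta_conj (s : ℂ) : deriv riemannZeta (conj s) = conj (deriv riemannZeta s) := by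
  have he : conj ∘ riemannZeta ∘ conj = riemannZeta := funext fun z => by
    simp only [Function.comp_apply, riemannZeta_conj, Complex.conj_conj]
  conv_lhs => rw [← he, deriv_conj_conj]
  simp

/-- **On the critical line the real part of `Γℝ G` vanishes only at zeros of `ζ`.** -/
theorem zeta_eq_zero_of_re_eq_zero {t : ℝ} (ht : lvBase ≤ t)
    (h : (Gammaℝ (((1 / 2 : ℝ) : ℂ) + t * I) * lvFn (((1 / 2 : ℝ) : ℂ) + t * I)).re = 0) :
    riemannZeta (((1 / 2 : ℝ) : ℂ) + t * I) = 0 := by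
  obtain ⟨s, hs⟩ : ∃ s : ℂ, s = ((1 / 2 : ℝ) : ℂ) + t * I := ⟨_, rfl⟩
  rw [← hs] at h ⊢
  have hre : s.re = 1 / 2 := by simp [hs]
  have him : s.im = t := by simp [hs]
  have him0 : s.im ≠ 0 := im_ne_zero_of_base (him ▸ ht)
  have hsym : 1 - s = conj s :=
    Complex.ext (by rw [sub_re, one_re, hre, conj_re, hre]; norm_num) (by simp)
  have hD0 : lvD s ≠ 0 := lvD_ne_zero (by linarith) (by linarith) (him ▸ ht)
  have hX : conj (Gammaℝ s * riemannZeta s) = Gammaℝ s * riemannZeta s := by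
    rw [map_mul, FA.HardyZeros.conj_Gammaℝ, ← riemannZeta_conj, ← hsym,
      gammaℝ_mul_zeta_one_sub him0]
  have hDr : lvD s = ((2 * (gammaLog s).re : ℝ) : ℂ) := by
    rw [lvD, hsym, gammaLog_conj, add_conj]
  have hid := gammaℝ_mul_lvD_mul_lvFn him0 hD0
  rw [hsym, ← FA.HardyZeros.conj_Gammaℝ, deriv_zeta_conj, ← map_mul] at hid
  obtain ⟨δ, hδ⟩ : ∃ δ : ℝ, δ = 2 * (gammaLog s).re := ⟨_, rfl⟩
  rw [← hδ] at hDr
  have hδ0 : δ ≠ 0 := fun h0 => hD0 (by rw [hDr, h0, ofReal_zero])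
  obtain ⟨X, hXdef⟩ : ∃ X, X = Gammaℝ s * riemannZeta s := ⟨_, rfl⟩
  obtain ⟨Y, hYdef⟩ : ∃ Y, Y = Gammaℝ s * deriv riemannZeta s := ⟨_, rfl⟩
  have hG : Gammaℝ s * lvFn s = X + Y / (δ : ℂ) := by
    rw [hXdef, hYdef, lvFn, hDr]
    ring
  rw [show Gammaℝ s * lvD s * lvFn s = lvD s * (Gammaℝ s * lvFn s) by ring, hG, hDr, mul_add,
    mul_div_cancel₀ _ (ofReal_ne_zero.2 hδ0), ← hYdef] at hid
  have h1 := congrArg Complex.re hid
  simp only [add_re, mul_re, ofReal_re, ofReal_im, zero_mul, sub_zero, neg_re, conj_re] at h1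
  rw [hG, add_re, div_ofReal_re] at h
  have hXre : X.re = 0 := by
    have e : Y.re / δ = -X.re / 2 := by
      rw [div_eq_iff hδ0]
      linarith
    linarith
  have hX0 : X = 0 := Complex.ext hXre (by
    have := congrArg Complex.im hX
    rw [← hXdef, conj_im] at this
    rw [zero_im]
    linarith)
  exact (mul_eq_zero.1 (hXdef ▸ hX0)).resolve_left (gammaℝ_ne_zero him0)

theorem norm_zeta_le_sixteen {s : ℂ} (hs : 5 / 4 ≤ s.re) : ‖riemannZeta s‖ ≤ 16 := by
  have h : ‖riemannZeta ((5 / 4 : ℝ) : ℂ)‖ ≤ 16 := by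
    have := FA.ZeroFree.norm_zeta_real_le (δ := 1 / 4) (by norm_num) (by norm_num)
    norm_num at this ⊢
    exact this
  refine le_trans ?_ h
  have hsum : ∀ z : ℂ, 5 / 4 ≤ z.re → HasSum (fun n : ℕ => 1 / ((n : ℂ) + 1) ^ z) (riemannZeta z) :=
    fun z hz => by
      rw [zeta_eq_tsum_one_div_nat_add_one_cpow (by linarith)]
      refine Summable.hasSum ?_
      exact_mod_cast (summable_nat_add_iff 1).2
        (Complex.summable_one_div_nat_cpow.2 (show 1 < z.re by linarith))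
  have hnorm : ∀ (z : ℂ) (n : ℕ), ‖1 / ((n : ℂ) + 1) ^ z‖ = 1 / ((n : ℝ) + 1) ^ z.re :=
    fun z n => by
    rw [norm_div, norm_one, show ((n : ℂ) + 1) = (((n : ℝ) + 1 : ℝ) : ℂ) by push_cast; rfl,
      norm_cpow_eq_rpow_re_of_pos (by positivity)]
  have hR : HasSum (fun n : ℕ => 1 / ((n : ℝ) + 1) ^ (5 / 4 : ℝ))
      (riemannZeta ((5 / 4 : ℝ) : ℂ)).re := by
    refine (hasSum_re (hsum ((5 / 4 : ℝ) : ℂ) (by simp))).congr_fun fun n => ?_
    rw [show ((n : ℂ) + 1) = (((n : ℝ) + 1 : ℝ) : ℂ) by push_cast; rfl,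
      ← ofReal_cpow (by positivity), ← ofReal_one, ← ofReal_div, ofReal_re]
  rw [← (hsum s hs).tsum_eq]
  refine (tsum_of_norm_bounded hR fun n => ?_).trans (re_le_norm _)
  rw [hnorm]
  exact one_div_le_one_div_of_le (by positivity)
    (Real.rpow_le_rpow_of_exponent_le (by linarith [(Nat.cast_nonneg n : (0 : ℝ) ≤ n)]) hs)

theorem norm_deriv_zeta_le {c : ℂ} {R C : ℝ} (hR : 0 < R) (hR1 : R < |c.im|)
    (hC : ∀ z ∈ sphere c R, ‖riemannZeta z‖ ≤ C) : ‖deriv riemannZeta c‖ ≤ C / R := by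
  refine norm_deriv_le_of_forall_mem_sphere_norm_le hR (DifferentiableOn.diffContOnCl ?_) hC
  intro z hz
  refine (differentiableAt_riemannZeta fun h => ?_).differentiableWithinAt
  rw [closure_ball c hR.ne', mem_closedBall, dist_eq_norm, h] at hz
  have := (abs_im_le_norm ((1 : ℂ) - c)).trans hz
  simp at this
  linarith

theorem lvFn_right_re_pos {t : ℝ} (ht : lvBase ≤ t) :
    0 < (lvFn (((2 : ℝ) : ℂ) + t * I)).re := by
  have hb := le_lvBase
  have hd : ‖deriv riemannZeta (((2 : ℝ) : ℂ) + t * I)‖ ≤ 16 / (1 / 4) := by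
    refine norm_deriv_zeta_le (by norm_num) (by simp; rw [abs_of_nonneg (by linarith)]; linarith)
      fun z hz => norm_zeta_le_sixteen ?_
    rw [mem_sphere, dist_eq_norm] at hz
    have := (abs_re_le_norm _).trans hz.le
    simp at this
    linarith [(abs_le.1 this).1]
  have hD := le_norm_lvD (s := ((2 : ℝ) : ℂ) + t * I) (by simp) (by simp; norm_num) (by simpa)
  have hq : ‖deriv riemannZeta (((2 : ℝ) : ℂ) + t * I) / lvD (((2 : ℝ) : ℂ) + t * I)‖ ≤
      64 / 3900 := by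
    rw [norm_div]
    exact div_le_div₀ (by norm_num) (by linarith) (by norm_num) hD
  have h2 := BohrLandau.two_sub_zeta_two_le_re t
  have h3 := (abs_le.1 ((abs_re_le_norm _).trans hq)).1
  rw [lvFn, add_re]
  nlinarith [Real.pi_lt_d2, Real.pi_pos]

theorem le_norm_lvFn_centre {t : ℝ} (ht : lvBase ≤ t) :
    1 / 16 ≤ ‖lvFn (((3 / 2 : ℝ) : ℂ) + t * I)‖ := by
  have hb := le_lvBase
  have hd : ‖deriv riemannZeta (((3 / 2 : ℝ) : ℂ) + t * I)‖ ≤ 16 / (1 / 4) := by
    refine norm_deriv_zeta_le (by norm_num) (by simp; rw [abs_of_nonneg (by linarith)]; linarith)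
      fun z hz => norm_zeta_le_sixteen ?_
    rw [mem_sphere, dist_eq_norm] at hz
    have := (abs_re_le_norm _).trans hz.le
    simp at this
    linarith [(abs_le.1 this).1]
  have hD := le_norm_lvD (s := ((3 / 2 : ℝ) : ℂ) + t * I) (by simp; norm_num)
    (by simp) (by simpa)
  have hq : ‖deriv riemannZeta (((3 / 2 : ℝ) : ℂ) + t * I) / lvD (((3 / 2 : ℝ) : ℂ) + t * I)‖ ≤
      64 / 3900 := by
    rw [norm_div]
    exact div_le_div₀ (by norm_num) (by linarith) (by norm_num) hD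
  have h2 := FA.DLVP.zeta_lower (δ := 1 / 2) (by norm_num) (by norm_num) t
  rw [show ((1 + 1 / 2 : ℝ) : ℂ) = ((3 / 2 : ℝ) : ℂ) by norm_num] at h2
  have h3 := norm_sub_le_norm_add (riemannZeta (((3 / 2 : ℝ) : ℂ) + t * I))
    (deriv riemannZeta (((3 / 2 : ℝ) : ℂ) + t * I) / lvD (((3 / 2 : ℝ) : ℂ) + t * I))
  rw [lvFn]
  linarith

theorem norm_lvFn_le {z : ℂ} (h1 : 3 / 10 ≤ z.re) (h2 : z.re ≤ 27 / 10) (ht : lvBase ≤ z.im) :
    ‖lvFn z‖ ≤ 6 * (z.im + 4) := by
  have hb := le_lvBase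
  have habs : |z.im| = z.im := abs_of_nonneg (by linarith)
  have hd : ‖deriv riemannZeta z‖ ≤ 5 * (z.im + 1 / 20 + 3) / (1 / 20) := by
    refine norm_deriv_zeta_le (by norm_num) (by rw [habs]; linarith) fun w hw => ?_
    rw [mem_sphere, dist_eq_norm] at hw
    have a := abs_le.1 ((abs_re_le_norm _).trans hw.le)
    have b := abs_le.1 ((abs_im_le_norm _).trans hw.le)
    rw [sub_re] at a
    rw [sub_im] at b
    have hw' : |w.im| = w.im := abs_of_nonneg (by linarith)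
    refine (FA.DLVP.norm_zeta_crude (by linarith) (by linarith) (by rw [hw']; linarith)).trans ?_
    rw [hw']
    linarith
  have hD := le_norm_lvD (s := z) (by linarith) (by linarith) ht
  have hq : ‖deriv riemannZeta z / lvD z‖ ≤ (5 * (z.im + 1 / 20 + 3) / (1 / 20)) / 3900 := by
    rw [norm_div]
    exact div_le_div₀ (div_nonneg (by linarith) (by norm_num)) hd (by norm_num) hD
  have h3 : ‖riemannZeta z‖ ≤ 5 * (z.im + 3) := by
    have := FA.DLVP.norm_zeta_crude (s := z) (by linarith) (by linarith) (by rw [habs]; linarith)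
    rwa [habs] at this
  refine (norm_add_le _ _).trans ?_
  linarith

end FA.Levinson

end
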