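import Fermat.Agent.RiemannMangoldt.Main

/-!
# The rectangle `[1/2, 2] × [a, b]`

The imaginary part of a contour integral round it is split into the three outer edges and the
edge on the critical line. A simple pole inside turns the left edge by `2π` against the outer ones.
-/

set_option autoImplicit false

noncomputable section

namespace FA.Levinson

open Complex MeasureTheory Set FA.RiemannMangoldt
open scoped Real

/-- The rectangle. -/
def lvBox (a b : ℝ) : Set ℂ := Icc (1 / 2 : ℝ) 2 ×ℂ Icc a b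

/-- Its lower, upper and right edges. -/
def lvRim (a b : ℝ) : Set ℂ := {s : ℂ | s ∈ lvBox a b ∧ (s.im = a ∨ s.im = b ∨ s.re = 2)}

/-- Its left edge. -/
def lvEdge (a b : ℝ) : Set ℂ := {s : ℂ | s ∈ lvBox a b ∧ s.re = 1 / 2}

/-- The imaginary part of the integral along the three outer edges. -/
def outerSum (F : ℂ → ℂ) (a b : ℝ) : ℝ :=
  (∫ u in (1 / 2 : ℝ)..2, F ((u : ℂ) + a * I)).im -
    (∫ u in (1 / 2 : ℝ)..2, F ((u : ℂ) + b * I)).im +
    (∫ y in a..b, F (((2 : ℝ) : ℂ) + y * I)).re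

/-- The same along the left edge. -/
def leftSum (F : ℂ → ℂ) (a b : ℝ) : ℝ := (∫ y in a..b, F (((1 / 2 : ℝ) : ℂ) + y * I)).re

/-- The turn seen from a point `ρ` along the left edge. -/
def argTurn (a b : ℝ) (ρ : ℂ) : ℝ :=
  (((1 / 2 : ℝ) : ℂ) + b * I - ρ).arg - (((1 / 2 : ℝ) : ℂ) + a * I - ρ).arg

theorem argTurn_le (a b : ℝ) (ρ : ℂ) : argTurn a b ρ ≤ 2 * π :=
  (le_abs_self _).trans (abs_arg_sub_le _ _)

variable {a b : ℝ} {F G : ℂ → ℂ}

theorem mem_lvBox {u v : ℝ} (hu : u ∈ Icc (1 / 2 : ℝ) 2) (hv : v ∈ Icc a b) :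
    (u : ℂ) + v * I ∈ lvBox a b := by
  rw [lvBox, mem_reProdIm]
  exact ⟨by simpa using hu, by simpa using hv⟩

theorem mem_lvRim_lower (hab : a ≤ b) {u : ℝ} (hu : u ∈ uIcc (1 / 2 : ℝ) 2) :
    (u : ℂ) + a * I ∈ lvRim a b := by
  rw [uIcc_of_le (by norm_num)] at hu
  exact ⟨mem_lvBox hu (left_mem_Icc.2 hab), Or.inl (by simp)⟩

theorem mem_lvRim_upper (hab : a ≤ b) {u : ℝ} (hu : u ∈ uIcc (1 / 2 : ℝ) 2) :
    (u : ℂ) + b * I ∈ lvRim a b := by
  rw [uIcc_of_le (by norm_num)] at hu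
  exact ⟨mem_lvBox hu (right_mem_Icc.2 hab), Or.inr (Or.inl (by simp))⟩

theorem mem_lvRim_right (hab : a ≤ b) {y : ℝ} (hy : y ∈ uIcc a b) :
    ((2 : ℝ) : ℂ) + y * I ∈ lvRim a b := by
  rw [uIcc_of_le hab] at hy
  exact ⟨mem_lvBox (by norm_num) hy, Or.inr (Or.inr (by simp))⟩

theorem mem_lvEdge (hab : a ≤ b) {y : ℝ} (hy : y ∈ uIcc a b) :
    ((1 / 2 : ℝ) : ℂ) + y * I ∈ lvEdge a b := by
  rw [uIcc_of_le hab] at hy
  exact ⟨mem_lvBox (by norm_num) hy, by simp⟩

theorem integrable_rim (hab : a ≤ b) (hF : ContinuousOn F (lvRim a b)) :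
    IntervalIntegrable (fun u : ℝ => F ((u : ℂ) + a * I)) volume (1 / 2) 2 ∧
      IntervalIntegrable (fun u : ℝ => F ((u : ℂ) + b * I)) volume (1 / 2) 2 ∧
      IntervalIntegrable (fun y : ℝ => F (((2 : ℝ) : ℂ) + y * I)) volume a b :=
  ⟨(hF.comp (by fun_prop) fun _ h => mem_lvRim_lower hab h).intervalIntegrable,
    (hF.comp (by fun_prop) fun _ h => mem_lvRim_upper hab h).intervalIntegrable,
    (hF.comp (by fun_prop) fun _ h => mem_lvRim_right hab h).intervalIntegrable⟩

theorem integrable_edge (hab : a ≤ b) (hF : ContinuousOn F (lvEdge a b)) :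
    IntervalIntegrable (fun y : ℝ => F (((1 / 2 : ℝ) : ℂ) + y * I)) volume a b :=
  (hF.comp (by fun_prop) fun _ h => mem_lvEdge hab h).intervalIntegrable

theorem outerSum_add (hab : a ≤ b) (hF : ContinuousOn F (lvRim a b))
    (hG : ContinuousOn G (lvRim a b)) :
    outerSum (fun s => F s + G s) a b = outerSum F a b + outerSum G a b := by
  obtain ⟨a1, a2, a3⟩ := integrable_rim hab hF
  obtain ⟨b1, b2, b3⟩ := integrable_rim hab hG
  simp only [outerSum, intervalIntegral.integral_add a1 b1, intervalIntegral.integral_add a2 b2,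
    intervalIntegral.integral_add a3 b3, add_im, add_re]
  ring

theorem leftSum_add (hab : a ≤ b) (hF : ContinuousOn F (lvEdge a b))
    (hG : ContinuousOn G (lvEdge a b)) :
    leftSum (fun s => F s + G s) a b = leftSum F a b + leftSum G a b := by
  simp only [leftSum, intervalIntegral.integral_add (integrable_edge hab hF)
    (integrable_edge hab hG), add_re]

theorem outerSum_congr (hab : a ≤ b) (h : EqOn F G (lvRim a b)) :
    outerSum F a b = outerSum G a b := by
  rw [outerSum, outerSum,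
    intervalIntegral.integral_congr (fun u hu => h (mem_lvRim_lower hab hu)),
    intervalIntegral.integral_congr (fun u hu => h (mem_lvRim_upper hab hu)),
    intervalIntegral.integral_congr (fun u hu => h (mem_lvRim_right hab hu))]

/-- **Cauchy's theorem for the rectangle.** -/
theorem outerSum_eq_leftSum (hab : a ≤ b) (hF : DifferentiableOn ℂ F (lvBox a b)) :
    outerSum F a b = leftSum F a b := by
  have h := Complex.integral_boundary_rect_eq_zero_of_differentiableOn F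
    (((1 / 2 : ℝ) : ℂ) + (a : ℂ) * I) (((2 : ℝ) : ℂ) + (b : ℂ) * I) (hF.mono fun s hs => by
      simp only [add_re, ofReal_re, mul_re, I_re, mul_zero, ofReal_im, I_im, mul_one, sub_self,
        add_zero, add_im, mul_im, zero_add, uIcc_of_le hab,
        uIcc_of_le (show (1 / 2 : ℝ) ≤ 2 by norm_num)] at hs
      exact hs)
  simp only [add_re, ofReal_re, mul_re, I_re, mul_zero, ofReal_im, I_im, mul_one, sub_self,
    add_zero, add_im, mul_im, zero_add, smul_eq_mul] at h
  have := congrArg Complex.im h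
  simp only [add_im, sub_im, mul_im, I_re, I_im, zero_mul, one_mul, zero_add, zero_im] at this
  rw [outerSum, leftSum]
  linarith

theorem outerSum_inv {ρ : ℂ} (ha : a < ρ.im) (hb : ρ.im < b) (hr : ρ.re < 2) :
    ContinuousOn (fun s : ℂ => (s - ρ)⁻¹) (lvRim a b) ∧
      outerSum (fun s => (s - ρ)⁻¹) a b = argTurn a b ρ := by
  refine ⟨ContinuousOn.inv₀ (by fun_prop) fun s hs h0 => ?_, ?_⟩
  · rw [sub_eq_zero] at h0
    subst h0
    rcases hs.2 with h | h | h <;> linarith
  have e : ∀ u c : ℝ, (u : ℂ) + (c : ℂ) * I - ρ = (u : ℂ) + ((c : ℂ) * I - ρ) := fun u c => by ring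
  have er := re_integral_inv_vertical (w := ((2 : ℝ) : ℂ) - ρ) (by simp; linarith) a b
  rw [if_pos (by simp; linarith)] at er
  have e1 : ∀ y : ℝ, ((2 : ℝ) : ℂ) + (y : ℂ) * I - ρ = ((2 : ℝ) : ℂ) - ρ + (y : ℂ) * I :=
    fun y => by ring
  simp only [outerSum, e _ a, e _ b, integral_inv_horizontal (w := (a : ℂ) * I - ρ)
      (by simp; linarith), integral_inv_horizontal (w := (b : ℂ) * I - ρ) (by simp; linarith),
    Complex.sub_im, Complex.log_im]
  simp only [← e _ a, ← e _ b, e1, er, argTurn]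
  ring

theorem leftSum_inv {ρ : ℂ} (ha : a < ρ.im) (hb : ρ.im < b) (hr : 1 / 2 < ρ.re) :
    ContinuousOn (fun s : ℂ => (s - ρ)⁻¹) (lvEdge a b) ∧
      leftSum (fun s => (s - ρ)⁻¹) a b = argTurn a b ρ - 2 * π := by
  refine ⟨ContinuousOn.inv₀ (by fun_prop) fun s hs h0 => ?_, ?_⟩
  · rw [sub_eq_zero] at h0
    subst h0
    linarith [hs.2]
  have e1 : ∀ y : ℝ, ((1 / 2 : ℝ) : ℂ) + (y : ℂ) * I - ρ =
      ((1 / 2 : ℝ) : ℂ) - ρ + (y : ℂ) * I := fun y => by ring
  have el := re_integral_inv_vertical (w := ((1 / 2 : ℝ) : ℂ) - ρ) (by simp; linarith) a b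
  rw [if_neg (by simp; linarith)] at el
  simp only [leftSum, argTurn, e1]
  rw [el, Complex.arg_neg_eq_arg_sub_pi_of_im_pos (by simp; linarith),
    Complex.arg_neg_eq_arg_add_pi_of_im_neg (by simp; linarith)]
  ring

theorem outerSum_roots_add (hab : a ≤ b) (Z : Multiset ℂ)
    (hZ : ∀ ρ ∈ Z, a < ρ.im ∧ ρ.im < b ∧ ρ.re < 2) (hG : ContinuousOn G (lvRim a b)) :
    ContinuousOn (fun s => (Z.map fun ρ => (s - ρ)⁻¹).sum + G s) (lvRim a b) ∧
      outerSum (fun s => (Z.map fun ρ => (s - ρ)⁻¹).sum + G s) a b =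
        (Z.map (argTurn a b)).sum + outerSum G a b := by
  induction Z using Multiset.induction_on with
  | empty => simpa using hG
  | cons ρ Y ih =>
    obtain ⟨hc, he⟩ := ih fun x hx => hZ x (Multiset.mem_cons_of_mem hx)
    obtain ⟨h1, h2, h3⟩ := hZ ρ (Multiset.mem_cons_self _ _)
    obtain ⟨hc1, he1⟩ := outerSum_inv h1 h2 h3
    simp only [Multiset.map_cons, Multiset.sum_cons, add_assoc]
    refine ⟨hc1.add hc, ?_⟩
    rw [outerSum_add hab hc1 hc, he, he1]

theorem leftSum_roots_add (hab : a ≤ b) (Z : Multiset ℂ)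
    (hZ : ∀ ρ ∈ Z, a < ρ.im ∧ ρ.im < b ∧ 1 / 2 < ρ.re) (hG : ContinuousOn G (lvEdge a b)) :
    ContinuousOn (fun s => (Z.map fun ρ => (s - ρ)⁻¹).sum + G s) (lvEdge a b) ∧
      leftSum (fun s => (Z.map fun ρ => (s - ρ)⁻¹).sum + G s) a b =
        (Z.map (argTurn a b)).sum - 2 * π * Multiset.card Z + leftSum G a b := by
  induction Z using Multiset.induction_on with
  | empty => simpa using hG
  | cons ρ Y ih =>
    obtain ⟨hc, he⟩ := ih fun x hx => hZ x (Multiset.mem_cons_of_mem hx)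
    obtain ⟨h1, h2, h3⟩ := hZ ρ (Multiset.mem_cons_self _ _)
    obtain ⟨hc1, he1⟩ := leftSum_inv h1 h2 h3
    simp only [Multiset.map_cons, Multiset.sum_cons, Multiset.card_cons, add_assoc]
    refine ⟨hc1.add hc, ?_⟩
    rw [leftSum_add hab hc1 hc, he, he1]
    push_cast
    ring

end FA.Levinson

end
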