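import Fermat.Agent.Levinson.Horizontal
import Fermat.Agent.Levinson.Contour
import Fermat.Agent.HardyLittlewoodZeros.Main

/-!
# Levinson's counting inequality

Along the critical line the phase of `Γℝ G` grows by `π` times the main term of the zero count,
less `2π` for each zero of `G` to the right. At each crossing of `π/2` modulo `π` the function
`ζ` vanishes, so `N (T) ≤ N₀ (T) + 2 · lvCount T + O (log T)`.
-/

set_option autoImplicit false

noncomputable section

namespace FA.Levinson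

open Complex Filter Topology MeasureTheory Set FA.RiemannMangoldt FA.ZeroFree
open FA.HardyLittlewoodZeros (lineZeros finite_lineZeros)
open scoped Real

/-- **Crossings of `π/2` modulo `π` by a continuous phase.** -/
theorem phase_crossings {a b : ℝ} (hab : a ≤ b) {φ : ℝ → ℝ} (hφ : ContinuousOn φ (Icc a b))
    {S : Set ℝ} (hS : S.Finite) (h : ∀ t ∈ Icc a b, Real.cos (φ t) = 0 → t ∈ S) :
    (φ b - φ a) / π - 1 ≤ (S.ncard : ℝ) := by
  have hπ := Real.pi_pos
  obtain ⟨K, hK⟩ : ∃ K : Finset ℤ,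
      K = Finset.Icc ⌈(φ a - π / 2) / π⌉ ⌊(φ b - π / 2) / π⌋ := ⟨_, rfl⟩
  have hex : ∀ k ∈ K, ∃ t ∈ Icc a b, φ t = π / 2 + k * π := fun k hk => by
    rw [hK, Finset.mem_Icc, Int.ceil_le, Int.le_floor, div_le_iff₀ hπ, le_div_iff₀ hπ] at hk
    exact intermediate_value_Icc hab hφ ⟨by linarith [hk.1], by linarith [hk.2]⟩
  choose! g hg hφg using hex
  have hcard : (K.card : ℝ) ≤ (S.ncard : ℝ) := by
    rw [← Set.ncard_coe_finset]
    refine Nat.cast_le.2 (Set.ncard_le_ncard_of_injOn g (fun k hk => h _ (hg k hk) ?_)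
      (fun j hj k hk hjk => ?_) hS)
    · rw [hφg k hk, Real.cos_eq_zero_iff]
      exact ⟨k, by ring⟩
    · have e := hφg k hk
      rw [← hjk, hφg j hj] at e
      exact_mod_cast mul_right_cancel₀ hπ.ne' (by linarith : (j : ℝ) * π = (k : ℝ) * π)
  refine le_trans ?_ hcard
  rw [hK, Int.card_Icc]
  refine le_trans ?_ (Int.cast_le.2 (Int.self_le_toNat _))
  push_cast
  have h1 := Int.ceil_lt_add_one ((φ a - π / 2) / π)
  have h2 := Int.sub_one_lt_floor ((φ b - π / 2) / π)
  have e : (φ b - φ a) / π = (φ b - π / 2) / π - (φ a - π / 2) / π := by ring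
  linarith

theorem exp_logGammaReal {s : ℂ} (hs : 0 < s.re) : Complex.exp (logGammaReal s) = Gammaℝ s := by
  rw [Gammaℝ_def, logGammaReal, Complex.exp_add, exp_logGam (by simpa using hs),
    cpow_def_of_ne_zero (ofReal_ne_zero.2 Real.pi_ne_zero), ← ofReal_log Real.pi_pos.le]
  congr 2
  ring

/-- The phase of `Γℝ` on the critical line is `π` times the main term. -/
theorem abs_im_logGammaReal_line {t : ℝ} (ht : 2 ≤ t) :
    |(logGammaReal (((1 / 2 : ℝ) : ℂ) + t * I)).im - π * mainTerm t| ≤ 5 := by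
  have h := abs_im_logGam_sub_le (σ := 1 / 4) (t := t / 2) (by norm_num) (by norm_num)
    (by rw [abs_of_nonneg (by linarith)]; linarith)
  rw [abs_of_nonneg (by linarith : 0 ≤ t / 2)] at h
  rw [im_logGammaReal, show (((1 / 2 : ℝ) : ℂ) + t * I) / 2 =
      ((1 / 4 : ℝ) : ℂ) + ((t / 2 : ℝ) : ℂ) * I by push_cast; ring]
  refine le_trans (le_of_eq ?_) h
  congr 1
  have := Real.pi_ne_zero
  rw [mainTerm, show t / (2 * π) = t / 2 / π by ring,
    Real.log_div (by linarith) Real.pi_ne_zero]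
  simp only [add_im, ofReal_im, mul_im, ofReal_re, I_im, mul_one, I_re, mul_zero, zero_add,
    add_zero]
  field_simp
  ring

theorem rootProd_line {Z : Multiset ℂ} (hZ : ∀ ρ ∈ Z, ρ.re = 1 / 2) (t : ℝ) :
    ∃ r : ℝ, rootProd Z (((1 / 2 : ℝ) : ℂ) + t * I) = (r : ℂ) * I ^ Multiset.card Z := by
  induction Z using Multiset.induction_on with
  | empty => exact ⟨1, by simp [rootProd]⟩
  | cons ρ Y ih =>
    obtain ⟨r, hr⟩ := ih fun x hx => hZ x (Multiset.mem_cons_of_mem hx)
    have hρ := hZ ρ (Multiset.mem_cons_self _ _)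
    refine ⟨(t - ρ.im) * r, ?_⟩
    rw [rootProd_cons, hr, Multiset.card_cons,
      show ((1 / 2 : ℝ) : ℂ) + t * I - ρ = ((t - ρ.im : ℝ) : ℂ) * I from
        Complex.ext (by simp [hρ]) (by simp)]
    push_cast
    ring

/-- The change of the argument of `G` on the line `re = 2`. -/
theorem abs_right_le {a b : ℝ} (ha : lvBase ≤ a) (hab : a ≤ b) :
    |(∫ y in a..b, deriv lvFn (((2 : ℝ) : ℂ) + y * I) / lvFn (((2 : ℝ) : ℂ) + y * I)).re| ≤
      2 * π := by
  have han : ∀ y ∈ uIcc a b, AnalyticAt ℂ lvFn (((2 : ℝ) : ℂ) + y * I) := fun y hy => by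
    rw [uIcc_of_le hab] at hy
    exact analyticAt_lvFn (by simp) (by simp; norm_num) (by simp; linarith [hy.1])
  have hpos : ∀ y ∈ uIcc a b, 0 < (lvFn (((2 : ℝ) : ℂ) + y * I)).re := fun y hy => by
    rw [uIcc_of_le hab] at hy
    exact lvFn_right_re_pos (ha.trans hy.1)
  have hd : ∀ y ∈ uIcc a b, HasDerivAt (fun v : ℝ => Complex.log (lvFn (((2 : ℝ) : ℂ) + v * I)))
      (I * (deriv lvFn (((2 : ℝ) : ℂ) + y * I) / lvFn (((2 : ℝ) : ℂ) + y * I))) y := fun y hy => by
    have h1 := ((han y hy).differentiableAt.hasDerivAt.clog (Or.inl (hpos y hy))).comp y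
      (((hasDerivAt_id' (y : ℂ)).mul_const I).const_add ((2 : ℝ) : ℂ)).comp_ofReal
    exact h1.congr_deriv (by ring)
  have hc : ContinuousOn (fun y : ℝ =>
      I * (deriv lvFn (((2 : ℝ) : ℂ) + y * I) / lvFn (((2 : ℝ) : ℂ) + y * I))) (uIcc a b) :=
    fun y hy => (continuousAt_const.mul (ContinuousAt.comp' (g := fun s => deriv lvFn s / lvFn s)
      (f := fun v : ℝ => ((2 : ℝ) : ℂ) + v * I)
      ((han y hy).deriv.continuousAt.div (han y hy).continuousAt fun h0 => by
        have := hpos y hy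
        rw [h0, zero_re] at this
        exact lt_irrefl _ this) (by fun_prop))).continuousWithinAt
  have h := intervalIntegral.integral_eq_sub_of_hasDerivAt hd hc.intervalIntegrable
  rw [intervalIntegral.integral_const_mul] at h
  have h1 := congrArg Complex.im h
  simp only [mul_im, I_re, I_im, zero_mul, one_mul, zero_add, sub_im, Complex.log_im] at h1
  rw [h1]
  exact abs_arg_sub_le _ _

/-- **The phase inequality** on a rectangle with clean edges. -/
theorem phase_lower {a b T : ℝ} (ha : lvStart ≤ a) (hab : a < b) (hbT : b ≤ T)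
    (hGa : ∀ u ∈ Icc (1 / 2 : ℝ) 2, lvFn ((u : ℂ) + a * I) ≠ 0)
    (hGb : ∀ u ∈ Icc (1 / 2 : ℝ) 2, lvFn ((u : ℂ) + b * I) ≠ 0) :
    ((logGammaReal (((1 / 2 : ℝ) : ℂ) + b * I)).im -
        (logGammaReal (((1 / 2 : ℝ) : ℂ) + a * I)).im +
        outerSum (fun s => deriv lvFn s / lvFn s) a b) / π - 2 * lvCount T - 1 ≤
      ((lineZeros T).ncard : ℝ) := by
  classical
  have ha' : lvBase + 1 ≤ a := ha
  have hb0 := le_lvBase
  have hsub : lvBox a b ⊆ lvRegion T := fun s hs => by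
    rw [lvBox, mem_reProdIm] at hs
    rw [lvRegion, mem_reProdIm]
    exact ⟨hs.1, ha.trans hs.2.1, hs.2.2.trans hbT⟩
  have hU : lvBox a b ⊆ lvDomain := hsub.trans (lvRegion_subset T)
  obtain ⟨Z, h, hh, he, hZK, hh0, hord⟩ := exists_compact_factor isOpen_lvDomain
    (isCompact_Icc.reProdIm isCompact_Icc : IsCompact (lvBox a b)) hU differentiableOn_lvFn
    fun z hz => order_lvFn_ne_top (hU hz)
  have hzero : ∀ ρ ∈ Z, lvFn ρ = 0 := fun ρ hρ => by
    have hc : 0 < Z.count ρ := Multiset.count_pos.2 hρ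
    rw [← hord ρ (hZK ρ hρ)] at hc
    exact apply_eq_zero_of_analyticOrderNatAt_ne_zero hc.ne'
  have hcard : Multiset.card Z ≤ lvCount T := by
    rw [← Multiset.toFinset_sum_count_eq, lvCount]
    refine le_trans (le_of_eq (Finset.sum_congr rfl fun ρ hρ =>
      (hord ρ (hZK ρ (Multiset.mem_toFinset.1 hρ))).symm))
      (Finset.sum_le_sum_of_subset fun ρ hρ => ?_)
    rw [Set.Finite.mem_toFinset]
    rw [Multiset.mem_toFinset] at hρ
    exact ⟨hsub (hZK ρ hρ), hzero ρ hρ⟩
  have hZ : ∀ ρ ∈ Z, a < ρ.im ∧ ρ.im < b ∧ ρ.re < 2 ∧ 1 / 2 ≤ ρ.re := fun ρ hρ => by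
    have hm := hZK ρ hρ
    rw [mem_reProdIm] at hm
    refine ⟨lt_of_le_of_ne hm.2.1 fun h1 => hGa ρ.re hm.1 ?_,
      lt_of_le_of_ne hm.2.2 fun h1 => hGb ρ.re hm.1 ?_,
      lt_of_le_of_ne hm.1.2 fun h1 => ?_, hm.1.1⟩
    · rw [h1, Complex.re_add_im]
      exact hzero ρ hρ
    · rw [← h1, Complex.re_add_im]
      exact hzero ρ hρ
    · have h2 := lvFn_right_re_pos (t := ρ.im) (by linarith [hm.2.1])
      rw [← h1, Complex.re_add_im, hzero ρ hρ, zero_re] at h2
      exact lt_irrefl _ h2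
  have hha : ∀ s ∈ lvBox a b, AnalyticAt ℂ h s := fun s hs =>
    hh.analyticAt (isOpen_lvDomain.mem_nhds (hU hs))
  obtain ⟨g, hg⟩ : ∃ g : ℂ → ℂ, g = fun s => deriv h s / h s := ⟨_, rfl⟩
  have hgd : DifferentiableOn ℂ g (lvBox a b) := fun s hs => by
    rw [hg]
    exact ((hha s hs).deriv.div (hha s hs) (hh0 s hs)).differentiableAt.differentiableWithinAt
  have hgr : ContinuousOn g (lvRim a b) := hgd.continuousOn.mono fun s hs => hs.1
  have hgl : ContinuousOn g (lvEdge a b) := hgd.continuousOn.mono fun s hs => hs.1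
  have hlog : ∀ (Y : Multiset ℂ) (s : ℂ), s ∈ lvBox a b → (∀ ρ ∈ Y, s ≠ ρ) →
      HasDerivAt (fun z => rootProd Y z * h z)
        (rootProd Y s * h s * ((Y.map fun ρ => (s - ρ)⁻¹).sum + g s)) s := fun Y s hs hY => by
    refine ((hasDerivAt_rootProd hY).mul (hha s hs).differentiableAt.hasDerivAt).congr_deriv ?_
    have := hh0 s hs
    rw [hg]
    field_simp
  obtain ⟨hZr, hout⟩ := outerSum_roots_add hab.le Z (fun ρ hρ =>
    ⟨(hZ ρ hρ).1, (hZ ρ hρ).2.1, (hZ ρ hρ).2.2.1⟩) hgr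
  have hout' : outerSum (fun s => deriv lvFn s / lvFn s) a b =
      (Z.map (argTurn a b)).sum + outerSum g a b := by
    rw [← hout]
    refine outerSum_congr hab.le fun s hs => ?_
    have hne : ∀ ρ ∈ Z, s ≠ ρ := fun ρ hρ e => by
      obtain ⟨h1, h2, h3, -⟩ := hZ ρ hρ
      subst e
      rcases hs.2 with h4 | h4 | h4 <;> linarith
    rw [show lvFn = fun z => rootProd Z z * h z from funext he, (hlog Z s hs.1 hne).deriv,
      mul_div_cancel_left₀ _ (mul_ne_zero (rootProd_ne_zero hne) (hh0 s hs.1))]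
  obtain ⟨Zp, hZp⟩ : ∃ Y, Y = Z.filter fun ρ => 1 / 2 < ρ.re := ⟨_, rfl⟩
  obtain ⟨Ze, hZe⟩ : ∃ Y, Y = Z.filter fun ρ => ¬1 / 2 < ρ.re := ⟨_, rfl⟩
  have hsplit : Zp + Ze = Z := by rw [hZp, hZe, Multiset.filter_add_not]
  have hZe' : ∀ ρ ∈ Ze, ρ.re = 1 / 2 := fun ρ hρ => by
    rw [hZe, Multiset.mem_filter, not_lt] at hρ
    exact le_antisymm hρ.2 (hZ ρ hρ.1).2.2.2
  have hZp' : ∀ ρ ∈ Zp, a < ρ.im ∧ ρ.im < b ∧ 1 / 2 < ρ.re := fun ρ hρ => by
    rw [hZp, Multiset.mem_filter] at hρ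
    exact ⟨(hZ ρ hρ.1).1, (hZ ρ hρ.1).2.1, hρ.2⟩
  obtain ⟨hFc, hleft⟩ := leftSum_roots_add hab.le Zp hZp' hgl
  obtain ⟨F, hF⟩ : ∃ F : ℂ → ℂ, F = fun s => (Zp.map fun ρ => (s - ρ)⁻¹).sum + g s := ⟨_, rfl⟩
  rw [← hF] at hFc hleft
  obtain ⟨p, hp⟩ : ∃ p : ℝ → ℂ, p = fun t : ℝ => ((1 / 2 : ℝ) : ℂ) + t * I := ⟨_, rfl⟩
  have hpd : ∀ t : ℝ, HasDerivAt p I t := fun t => by
    rw [hp]
    simpa using (((hasDerivAt_id' (t : ℂ)).mul_const I).const_add
      ((1 / 2 : ℝ) : ℂ)).comp_ofReal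
  have hpedge : ∀ t ∈ Icc a b, p t ∈ lvEdge a b := fun t ht => by
    rw [hp]
    exact mem_lvEdge hab.le (by rwa [uIcc_of_le hab.le])
  obtain ⟨q, hq⟩ : ∃ q : ℝ → ℂ, q = fun t => I * F (p (max a (min b t))) := ⟨_, rfl⟩
  have hqc : Continuous q := by
    rw [hq]
    refine continuous_const.mul (hFc.comp_continuous ?_ fun t =>
      hpedge _ ⟨le_max_left _ _, max_le hab.le (min_le_left _ _)⟩)
    rw [hp]
    fun_prop
  have hqe : ∀ t ∈ Icc a b, q t = I * F (p t) := fun t ht => by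
    simp only [hq, min_eq_right ht.2, max_eq_right ht.1]
  obtain ⟨Q, hQ⟩ : ∃ Q : ℝ → ℂ, Q = fun t => ∫ y in a..t, q y := ⟨_, rfl⟩
  have hQd : ∀ t, HasDerivAt Q (q t) t := fun t => by
    rw [hQ]
    exact (hqc.integral_hasStrictDerivAt a t).hasDerivAt
  obtain ⟨k, hk⟩ : ∃ k : ℂ → ℂ, k = fun z => rootProd Zp z * h z := ⟨_, rfl⟩
  have hk0 : ∀ t ∈ Icc a b, k (p t) ≠ 0 := fun t ht => by
    rw [hk]
    refine mul_ne_zero (rootProd_ne_zero fun ρ hρ e => ?_) (hh0 _ (hpedge t ht).1)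
    have h1 := (hZp' ρ hρ).2.2
    rw [← e, (hpedge t ht).2] at h1
    exact lt_irrefl _ h1
  have hkd : ∀ t ∈ Icc a b,
      HasDerivAt (fun v : ℝ => k (p v) * Complex.exp (-Q v)) 0 t := fun t ht => by
    have h1 := (hlog Zp (p t) (hpedge t ht).1 fun ρ hρ e => by
      have h1 := (hZp' ρ hρ).2.2
      rw [← e, (hpedge t ht).2] at h1
      exact lt_irrefl _ h1).comp t (hpd t)
    rw [← hk] at h1
    refine (h1.mul (hQd t).neg.cexp).congr_deriv ?_
    simp only [hk, hqe t ht, hF, Function.comp_apply, Pi.neg_apply]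
    ring
  have hconst : ∀ t ∈ Icc a b, k (p t) = k (p a) * Complex.exp (Q t) := fun t ht => by
    have h1 := constant_of_has_deriv_right_zero
      (fun v hv => (hkd v hv).continuousAt.continuousWithinAt)
      (fun v hv => (hkd v (Ico_subset_Icc_self hv)).hasDerivWithinAt) t ht
    have h2 : Q a = 0 := by rw [hQ]; simp
    rw [h2, neg_zero, Complex.exp_zero, mul_one, Complex.exp_neg] at h1
    rw [← h1, inv_mul_cancel_right₀ (Complex.exp_ne_zero _)]
  obtain ⟨L, hL⟩ : ∃ L : ℝ → ℂ, L = fun t => logGammaReal (p t) +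
      (Multiset.card Ze : ℂ) * (π / 2 * I) + Complex.log (k (p a)) + Q t := ⟨_, rfl⟩
  have hLc : ContinuousOn (fun t => (L t).im) (Icc a b) := by
    rw [hL]
    refine Complex.continuous_im.comp_continuousOn ((((?_ : ContinuousOn _ _).add
      continuousOn_const).add continuousOn_const).add
        fun t _ => (hQd t).continuousAt.continuousWithinAt)
    exact fun t _ => ((hasDerivAt_logGammaReal (by simp [hp])).comp t
      (hpd t)).continuousAt.continuousWithinAt
  have hcross : ∀ t ∈ Icc a b, Real.cos ((L t).im) = 0 → t ∈ lineZeros T := fun t ht hcos => by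
    obtain ⟨r, hr⟩ := rootProd_line hZe' t
    have hre : (Complex.exp (L t)).re = 0 := by rw [Complex.exp_re, hcos, mul_zero]
    have hprod : Gammaℝ (p t) * lvFn (p t) = (r : ℂ) * Complex.exp (L t) := by
      rw [he, ← hsplit, show rootProd (Zp + Ze) (p t) = rootProd Zp (p t) * rootProd Ze (p t) by
          simp [rootProd], hL]
      simp only [Complex.exp_add, Complex.exp_nat_mul, Complex.exp_pi_div_two_mul_I,
        exp_logGammaReal (show 0 < (p t).re by simp [hp]),
        Complex.exp_log (hk0 a (left_mem_Icc.2 hab.le))]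
      have hk' := hconst t ht
      simp only [hk] at hk'
      rw [show rootProd Ze (p t) = (r : ℂ) * I ^ Multiset.card Ze by rw [← hr, hp]]
      linear_combination (norm := (simp only [hk]; ring))
        Gammaℝ (p t) * (r : ℂ) * I ^ Multiset.card Ze * hk'
    have hz : riemannZeta (((1 / 2 : ℝ) : ℂ) + t * I) = 0 := by
      refine zeta_eq_zero_of_re_eq_zero (by linarith [ht.1]) ?_
      have h3 := congrArg Complex.re hprod
      rw [re_ofReal_mul, hre, mul_zero, hp] at h3
      exact h3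
    refine ⟨by linarith [ht.1], ht.2.trans hbT, ?_⟩
    rw [← hz]
    push_cast
    ring_nf
  have hcr := phase_crossings hab.le hLc (finite_lineZeros T) hcross
  have hQb : (Q b).im = leftSum F a b := by
    rw [hQ]
    simp only []
    rw [intervalIntegral.integral_congr (g := fun y => I * F (p y))
        (fun y hy => hqe y (by rwa [uIcc_of_le hab.le] at hy)),
      intervalIntegral.integral_const_mul, hp, leftSum]
    simp
  have hQa : Q a = 0 := by rw [hQ]; simp
  have hdiff : (L b).im - (L a).im = (logGammaReal (((1 / 2 : ℝ) : ℂ) + b * I)).im -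
      (logGammaReal (((1 / 2 : ℝ) : ℂ) + a * I)).im + leftSum F a b := by
    rw [hL]
    simp only [add_im, hQa, zero_im, hQb, hp]
    ring
  have hmain : outerSum (fun s => deriv lvFn s / lvFn s) a b - 2 * π * lvCount T ≤
      leftSum F a b := by
    rw [hout', hleft, outerSum_eq_leftSum hab.le hgd]
    have h1 : (Z.map (argTurn a b)).sum =
        (Zp.map (argTurn a b)).sum + (Ze.map (argTurn a b)).sum := by
      rw [← Multiset.sum_add, ← Multiset.map_add, hsplit]
    have h2 : (Ze.map (argTurn a b)).sum ≤ Multiset.card Ze * (2 * π) := by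
      refine (Multiset.sum_le_card_nsmul _ (2 * π) fun x hx => ?_).trans (le_of_eq (by simp))
      obtain ⟨ρ, -, rfl⟩ := Multiset.mem_map.1 hx
      exact argTurn_le a b ρ
    have h3 : (Multiset.card Zp : ℝ) + Multiset.card Ze ≤ lvCount T := by
      have := hcard
      rw [← hsplit, Multiset.card_add] at this
      exact_mod_cast this
    nlinarith [mul_le_mul_of_nonneg_left h3 Real.pi_pos.le]
  rw [hdiff] at hcr
  refine le_trans ?_ hcr
  rw [sub_le_sub_iff_right, sub_le_iff_le_add, div_add' _ _ _ Real.pi_ne_zero]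
  refine div_le_div_of_nonneg_right ?_ Real.pi_pos.le
  linarith

/-- **Levinson's counting inequality.** -/
theorem exists_levinson_count : ∃ C, 0 ≤ C ∧ ∀ T : ℝ, 3 ≤ T →
    (zeroCount T : ℝ) ≤ ((lineZeros T).ncard : ℝ) + 2 * lvCount T + C * ell T := by
  obtain ⟨C₁, hC₁, hN⟩ := exists_count
  obtain ⟨C₂, hC₂, hH⟩ := exists_lvFn_horizontal
  obtain ⟨M, hM⟩ : ∃ M, M = |mainTerm (lvStart + 1)| + 4 * ell (lvStart + 1) := ⟨_, rfl⟩
  refine ⟨C₁ + 2 * C₂ + M + 12 + zeroCount (lvStart + 4), ?_, fun T hT => ?_⟩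
  · rw [hM]
    have := (ell_pos (lvStart + 1)).le
    positivity
  have hl := four_le_ell T
  have hM0 : 0 ≤ M := by
    rw [hM]
    linarith [abs_nonneg (mainTerm (lvStart + 1)), ell_pos (lvStart + 1)]
  have hZ0 : (0 : ℝ) ≤ zeroCount (lvStart + 4) := Nat.cast_nonneg _
  rcases lt_or_ge T (lvStart + 4) with hTs | hTs
  · have h1 : (zeroCount T : ℝ) ≤ zeroCount (lvStart + 4) := Nat.cast_le.2 (zeroCount_mono hTs.le)
    nlinarith [((lineZeros T).ncard).cast_nonneg (α := ℝ), (lvCount T).cast_nonneg (α := ℝ)]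
  have hs0 : lvStart = lvBase + 1 := rfl
  have hb0 := le_lvBase
  obtain ⟨S, hS⟩ : ∃ S, S = Complex.im '' {s | s ∈ lvRegion T ∧ lvFn s = 0} := ⟨_, rfl⟩
  have hSf : S.Finite := hS ▸ (finite_lvZeros T).image _
  obtain ⟨a, ⟨ha1, ha2⟩, haS⟩ :=
    ((Set.Ioo_infinite (show lvStart + 1 < lvStart + 2 by linarith)).sdiff hSf).nonempty
  obtain ⟨b, ⟨hb1, hb2⟩, hbS⟩ :=
    ((Set.Ioo_infinite (show T - 1 < T by linarith)).sdiff hSf).nonempty
  have hclean : ∀ c, lvStart ≤ c → c ≤ T → c ∉ S →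
      ∀ u ∈ Icc (1 / 2 : ℝ) 2, lvFn ((u : ℂ) + c * I) ≠ 0 := fun c h1 h2 hc u hu h0 =>
    hc (by
      rw [hS]
      exact ⟨_, ⟨by rw [lvRegion, mem_reProdIm]; simpa using ⟨by simpa using hu, h1, h2⟩, h0⟩,
        by simp⟩)
  have hca := hclean a (by linarith) (by linarith) haS
  have hcb := hclean b (by linarith) hb2.le hbS
  have hp := phase_lower (show lvStart ≤ a by linarith) (show a < b by linarith) hb2.le hca hcb
  have hlow := hH a (by linarith) hca
  have hup := hH b (by linarith) hcb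
  have hright := abs_right_le (show lvBase ≤ a by linarith) (show a ≤ b by linarith)
  have hout : |outerSum (fun s => deriv lvFn s / lvFn s) a b| ≤ 2 * C₂ * ell T + 2 * π := by
    have hea : C₂ * ell a ≤ C₂ * ell T := mul_le_mul_of_nonneg_left (by
      rw [ell, ell, abs_of_pos (by linarith), abs_of_pos (by linarith)]
      exact Real.log_le_log (by linarith) (by linarith)) hC₂
    have heb : C₂ * ell b ≤ C₂ * ell T := mul_le_mul_of_nonneg_left (by
      rw [ell, ell, abs_of_pos (by linarith), abs_of_pos (by linarith)]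
      exact Real.log_le_log (by linarith) (by linarith)) hC₂
    rw [outerSum]
    rw [abs_le] at hlow hup hright ⊢
    constructor <;> linarith
  have hga := abs_im_logGammaReal_line (t := a) (by linarith)
  have hgb := abs_im_logGammaReal_line (t := b) (by linarith)
  have hma : |mainTerm a| ≤ M := by
    have h1 := mainTerm_near (S := lvStart + 1) (T := a) (by linarith) ha1.le (by linarith)
    have h2 := abs_sub_abs_le_abs_sub (mainTerm a) (mainTerm (lvStart + 1))
    rw [hM]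
    linarith
  have hmb := (abs_le.1 (mainTerm_near (S := b) (T := T) (by linarith) hb2.le (by linarith))).2
  have heb' : ell b ≤ ell T := by
    rw [ell, ell, abs_of_pos (by linarith), abs_of_pos (by linarith)]
    exact Real.log_le_log (by linarith) (by linarith)
  have hNT := (abs_le.1 (hN T (by linarith))).2
  have hπ := Real.pi_gt_three
  have hkey : mainTerm b ≤ (lineZeros T).ncard + 2 * lvCount T + M + 2 * C₂ * ell T + 8 := by
    have h1 : π * mainTerm b - π * M - 10 - 2 * C₂ * ell T - 2 * π ≤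
        π * ((lineZeros T).ncard + 2 * lvCount T + 1) := by
      have h2 := mul_le_mul_of_nonneg_left (abs_le.1 hma).2 Real.pi_pos.le
      rw [sub_sub, sub_le_iff_le_add, div_le_iff₀ Real.pi_pos] at hp
      rw [abs_le] at hga hgb hout
      linarith
    have hE : 0 ≤ C₂ * ell T := mul_nonneg hC₂ (ell_pos T).le
    nlinarith
  nlinarith [mul_nonneg hM0 (sub_nonneg.2 (show 1 ≤ ell T by linarith)),
    mul_nonneg hZ0 (ell_pos T).le]

end FA.Levinson

end
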