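import Fermat.Agent.Levinson.Counting

/-!
# The zeros of `ζ'` to the left of the critical line

`s ↦ 1 - conj s` takes the zeros of `G` with `1/2 ≤ re ≤ 2` to those of `ζ'` with
`-1 ≤ re ≤ 1/2`, with the same multiplicities. So without zeros of `ζ'` there all but `O (log T)`
of the zeros of `ζ` lie on the critical line.
-/

set_option autoImplicit false

noncomputable section

namespace FA.Levinson

open Complex Filter Topology Set FA.RiemannMangoldt FA.ZeroFree
open FA.HardyLittlewoodZeros (lineZeros)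
open scoped ComplexConjugate

/-- A function real on the real axis has the same order at conjugate points. -/
theorem analyticOrderNatAt_conj {f : ℂ → ℂ} (hsym : ∀ z, f (conj z) = conj (f z)) {z : ℂ}
    (hf : AnalyticAt ℂ f z) : analyticOrderNatAt f (conj z) = analyticOrderNatAt f z := by
  have hanal : ∀ {g : ℂ → ℂ} {w : ℂ}, AnalyticAt ℂ g w → AnalyticAt ℂ (conj ∘ g ∘ conj) (conj w) :=
    fun {g w} hg => by
      rw [analyticAt_iff_eventually_differentiableAt] at hg ⊢
      have ht : Tendsto (fun v : ℂ => conj v) (𝓝 (conj w)) (𝓝 w) := by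
        simpa using Complex.continuous_conj.tendsto (conj w)
      filter_upwards [ht.eventually hg] with v hv
      exact differentiableAt_conj_conj_iff.2 hv
  have heq : conj ∘ f ∘ conj = f := funext fun v => by simp [hsym]
  have key : ∀ (w : ℂ) (n : ℕ), AnalyticAt ℂ f w → analyticOrderAt f w = n →
      analyticOrderAt f (conj w) = n := fun w n hw hn => by
    obtain ⟨g, hg, hg0, he⟩ := hw.analyticOrderAt_eq_natCast.1 hn
    have hw' : AnalyticAt ℂ f (conj w) := heq ▸ hanal hw
    refine hw'.analyticOrderAt_eq_natCast.2 ⟨conj ∘ g ∘ conj, hanal hg, by simpa using hg0, ?_⟩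
    have ht : Tendsto (fun v : ℂ => conj v) (𝓝 (conj w)) (𝓝 w) := by
      simpa using Complex.continuous_conj.tendsto (conj w)
    filter_upwards [ht.eventually he] with v hv
    rw [hsym, smul_eq_mul] at hv
    have := congrArg conj hv
    rw [Complex.conj_conj, map_mul, map_pow, map_sub, Complex.conj_conj] at this
    rw [smul_eq_mul]
    exact this
  rw [analyticOrderNatAt, analyticOrderNatAt]
  cases h : analyticOrderAt f z with
  | top =>
    cases h' : analyticOrderAt f (conj z) with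
    | top => rfl
    | coe n =>
      have h2 := key _ n (heq ▸ hanal hf) h'
      rw [Complex.conj_conj, h] at h2
      simp at h2
  | coe n => rw [key z n hf h]

theorem lvD_ne_zero_of_mem {s : ℂ} (hs : s ∈ lvDomain) : lvD s ≠ 0 :=
  lvD_ne_zero hs.1.1.le hs.1.2.le hs.2.le

/-- **Zeros of `G` are mirror images of zeros of `ζ'`.** -/
theorem analyticOrderNatAt_lvFn {s : ℂ} (hs : s ∈ lvDomain) :
    analyticOrderNatAt lvFn s = analyticOrderNatAt (deriv riemannZeta) (1 - conj s) := by
  have him : s.im ≠ 0 := im_ne_zero_of_base hs.2.le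
  have him' : (1 - s).im ≠ 0 := by simpa using him
  have hsub : AnalyticAt ℂ (fun z : ℂ => 1 - z) s := by fun_prop
  have hne : 1 - s ≠ 1 := fun h => him' (by rw [h, one_im])
  have hζ : AnalyticAt ℂ (deriv riemannZeta) (1 - s) := (analyticAt_zeta hne).deriv
  have hDa : AnalyticAt ℂ lvD s :=
    (analyticAt_gammaLog him).add ((analyticAt_gammaLog him').comp hsub)
  have hA : AnalyticAt ℂ (Gammaℝ * lvD) s := (analyticAt_gammaℝ him).mul hDa
  have hB : AnalyticAt ℂ (fun z => -Gammaℝ (1 - z)) s := ((analyticAt_gammaℝ him').comp hsub).neg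
  have hev : (Gammaℝ * lvD) * lvFn =ᶠ[𝓝 s]
      (fun z => -Gammaℝ (1 - z)) * (deriv riemannZeta ∘ fun z => 1 - z) := by
    filter_upwards [isOpen_lvDomain.mem_nhds hs] with z hz
    simp only [Pi.mul_apply, Function.comp_apply, neg_mul]
    exact gammaℝ_mul_lvD_mul_lvFn (im_ne_zero_of_base hz.2.le) (lvD_ne_zero_of_mem hz)
  have h1 := analyticOrderAt_congr hev
  rw [analyticOrderAt_mul hA (analyticAt_lvFn hs.1.1.le hs.1.2.le hs.2.le),
    hA.analyticOrderAt_eq_zero.2 (mul_ne_zero (gammaℝ_ne_zero him) (lvD_ne_zero_of_mem hs)),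
    zero_add, analyticOrderAt_mul hB (hζ.comp hsub),
    hB.analyticOrderAt_eq_zero.2 (neg_ne_zero.2 (gammaℝ_ne_zero him')), zero_add,
    analyticOrderAt_comp_of_deriv_ne_zero hsub (by simp)] at h1
  rw [show 1 - conj s = conj (1 - s) by simp, analyticOrderNatAt_conj deriv_zeta_conj hζ,
    analyticOrderNatAt, h1, ← analyticOrderNatAt]

theorem deriv_zeta_eq_zero_iff {s : ℂ} (hs : s ∈ lvDomain) :
    deriv riemannZeta (1 - conj s) = 0 ↔ lvFn s = 0 := by
  have him : s.im ≠ 0 := im_ne_zero_of_base hs.2.le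
  rw [show 1 - conj s = conj (1 - s) by simp, deriv_zeta_conj, map_eq_zero]
  have h := gammaℝ_mul_lvD_mul_lvFn him (lvD_ne_zero_of_mem hs)
  have g1 := gammaℝ_ne_zero him
  have g2 := gammaℝ_ne_zero (s := 1 - s) (by simpa using him)
  have g3 := lvD_ne_zero_of_mem hs
  constructor <;> intro h0
  · rw [h0, mul_zero, neg_zero] at h
    exact (mul_eq_zero.1 h).resolve_left (mul_ne_zero g1 g3)
  · rw [h0, mul_zero, eq_comm, neg_eq_zero] at h
    exact (mul_eq_zero.1 h).resolve_left g2

/-- The zeros of `ζ'` with `-1 ≤ re ≤ 1/2` between the base height and `T`. -/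
def derivZetaLeft (T : ℝ) : Set ℂ :=
  {w : ℂ | deriv riemannZeta w = 0 ∧ w.re ∈ Icc (-1 : ℝ) (1 / 2) ∧ w.im ∈ Icc lvStart T}

theorem mirror_mem_lvZeros {T : ℝ} {w : ℂ} (hw : w ∈ derivZetaLeft T) :
    1 - conj w ∈ lvRegion T ∧ lvFn (1 - conj w) = 0 := by
  obtain ⟨h0, ⟨h1, h2⟩, h3⟩ := hw
  have hm : 1 - conj w ∈ lvRegion T := by
    rw [lvRegion, mem_reProdIm]
    refine ⟨?_, by simpa using h3⟩
    simp only [sub_re, one_re, conj_re, Set.mem_Icc]
    constructor <;> linarith
  exact ⟨hm, (deriv_zeta_eq_zero_iff (lvRegion_subset T hm)).1 (by simpa using h0)⟩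

theorem mirror_mem_derivZetaLeft {T : ℝ} {s : ℂ} (hs : s ∈ lvRegion T) (h0 : lvFn s = 0) :
    1 - conj s ∈ derivZetaLeft T := by
  refine ⟨(deriv_zeta_eq_zero_iff (lvRegion_subset T hs)).2 h0, ?_⟩
  rw [lvRegion, mem_reProdIm] at hs
  refine ⟨?_, by simpa using hs.2⟩
  simp only [sub_re, one_re, conj_re, Set.mem_Icc]
  constructor <;> linarith [hs.1.1, hs.1.2]

theorem finite_derivZetaLeft (T : ℝ) : (derivZetaLeft T).Finite :=
  ((finite_lvZeros T).image fun s => 1 - conj s).subset fun w hw =>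
    ⟨1 - conj w, mirror_mem_lvZeros hw, by simp⟩

/-- Their number, with multiplicity. -/
def derivZetaLeftCount (T : ℝ) : ℕ :=
  ∑ w ∈ (finite_derivZetaLeft T).toFinset, analyticOrderNatAt (deriv riemannZeta) w

theorem lvCount_eq (T : ℝ) : lvCount T = derivZetaLeftCount T := by
  refine Finset.sum_nbij' (fun s => 1 - conj s) (fun w => 1 - conj w) (fun s hs => ?_)
    (fun w hw => ?_) (fun s _ => by simp) (fun w _ => by simp) fun s hs => ?_
  · simp only [Set.Finite.mem_toFinset] at hs ⊢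
    exact mirror_mem_derivZetaLeft hs.1 hs.2
  · simp only [Set.Finite.mem_toFinset] at hw ⊢
    exact mirror_mem_lvZeros hw
  · rw [Set.Finite.mem_toFinset] at hs
    exact analyticOrderNatAt_lvFn (lvRegion_subset T hs.1)

/-- **`N (T) ≤ N₀ (T)` plus twice the zeros of `ζ'` left of the critical line, up to `log T`.** -/
theorem exists_derivZeta_count : ∃ C, 0 ≤ C ∧ ∀ T : ℝ, 3 ≤ T →
    (zeroCount T : ℝ) ≤ ((lineZeros T).ncard : ℝ) + 2 * derivZetaLeftCount T + C * ell T := by
  obtain ⟨C, hC, h⟩ := exists_levinson_count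
  exact ⟨C, hC, fun T hT => lvCount_eq T ▸ h T hT⟩

/-- **Without such zeros of `ζ'`, all but `O (log T)` zeros of `ζ` are on the line.** -/
theorem exists_count_of_deriv_ne_zero : ∃ C, 0 ≤ C ∧ ∀ T : ℝ, 3 ≤ T →
    (∀ w : ℂ, w.re ∈ Icc (-1 : ℝ) (1 / 2) → lvStart ≤ w.im → w.im ≤ T →
      deriv riemannZeta w ≠ 0) →
    (zeroCount T : ℝ) ≤ ((lineZeros T).ncard : ℝ) + C * ell T := by
  obtain ⟨C, hC, h⟩ := exists_derivZeta_count
  refine ⟨C, hC, fun T hT hne => ?_⟩
  have h0 : derivZetaLeftCount T = 0 := Finset.sum_eq_zero fun w hw => by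
    rw [Set.Finite.mem_toFinset] at hw
    exact absurd hw.1 (hne w hw.2.1 hw.2.2.1 hw.2.2.2)
  simpa [h0] using h T hT

end FA.Levinson

end
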